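import Fermat.Agent.S59.Arch.SpecRT

/-!
# Row S59, cell TW (`Arch.MinRTStatement`), LAYER 1: frozen interface (helper959)

Layer 1 is the interface between the patching argument (proved in `TW/H959/Glue.lean`) and the
Hecke side.  Everything here is a sorry-free definition; the file is FROZEN once on main.

## Leaves (each is a `Prop`; prove `theorem foo : FooStatement`)

* `HeckeSideStatement` (MOUNTAIN = TW-HECKE + TW-TOP/M-FREE + TW-CTRL + TW-ES/TWIST + TW-LGC):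
  the minimal Hecke package `P₀` with a nonzero `T₀`-module `M₀`, and for EVERY Taylor–Wiles set
  `Q` a Hecke package `P_Q` of type `Smin ∪ Q` (the Prelude ring `heckeLocal (N Q²)`), a
  restriction map `T_Q → T₀`, a `T_Q`-module `M_Q ↠ M₀` and elements `w_i ∈ T_Q` such that
  - `w_i` is the INERTIA VALUE of the Galois representation of `P_Q` at `q_i`
    (`IsInertiaValue`, a formula in traces: `w = ξ(σ)` if `ρ|G_q = ξ ⊕ ξ'`);
  - `ker (M_Q → M₀) = (w_i - 1) M_Q`;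
  - `M_Q / (w_i^(p^n) - 1)` is free over the group ring `𝒪[(ℤ/p^n)^r]` acting through the `w_i`
    (`IsGroupRingBasis`).
  No deformation ring, no power series ring, no patching on the Hecke side.
* `DefRingResStatement` (TW-GAL, small): `R_{Σ'} ↠ R_Σ` for `Σ ⊆ Σ'`.
* `WeierstrassStatement` (Mathlib only): every power series is congruent modulo
  `((1+X_i)^(p^n) - 1)` to an `𝒪`-combination of the monomials `∏ (1+X_i)^(a_i)`, `a_i < p^n`.
* `MinNumStatement` (numerical equality for complete intersections, helper427).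
* `TWPrimesStatement` (= frozen S56 in the vocabulary of `sigmaCond`).

## Glue (`TW/H959/Glue.lean`)
`minRT_of_leaves : TWPrimes → (S53 + COND) → S54 → DefRingRes → Weierstrass → MinNum → RED →
  HeckeSide → Arch.MinRTStatement`.
-/

set_option autoImplicit false

open Polynomial IsLocalRing

namespace Fermat.Agent.S59.TW.H959

open Fermat.Agent.S59.Arch

/-! ## Taylor–Wiles sets -/

/-- `qv` is a **Taylor–Wiles set of level `n`** for `ρ̄` relative to `S`: distinct primes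
`q ∉ S`, `q ≡ 1 mod p^(n+1)`, at which every Frobenius has two distinct eigenvalues in `k`.
(The first three conjuncts of the conclusion of the frozen S56.) -/
def IsTWSet {k : Type} [Field k] (p : ℕ) (ρbar : ResidualGaloisRep k) (S : Finset ℕ) (n : ℕ)
    {r : ℕ} (qv : Fin r → ℕ) : Prop :=
  Function.Injective qv ∧
    (∀ i, (qv i).Prime ∧ qv i ∉ S ∧ p ^ (n + 1) ∣ qv i - 1) ∧
    (∀ i, ∀ P : ValuationSubring (AlgebraicClosure ℚ), P.LiesOverPrime (qv i) →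
      ∀ φ : AlgebraicClosure ℚ ≃ₐ[ℚ] AlgebraicClosure ℚ, P.IsFrobeniusAt φ (qv i) →
        ∃ α β : k, α ≠ β ∧ LinearMap.charpoly (ρbar.ρ φ) = (X - C α) * (X - C β))

/-! ## The inertia value -/

/-- **The inertia value.**  `w` is the value at `σ` of the character by which inertia acts on the
eigenline of `ρ(φ)` whose eigenvalue is congruent to `a₀`, expressed by traces: if
`charpoly ρ(φ) = (X - a)(X - b)` with `a ≡ a₀` and `a - b` a unit, then
`(a - b) w = tr ρ(φσ) - b tr ρ(σ)`.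
(If `ρ(φ) = diag(a,b)` and `ρ(σ) = diag(x,y)` then `w = x`.)  `w` is unique, compatible with
base change and equivalence, and `w = 1` if `ρ(σ) = 1` (`TW/H959/Inertia.lean`). -/
def IsInertiaValue {A : Type} [CommRing A] [IsLocalRing A] (ρ : GaloisRepAdic A)
    (φ σ : AlgebraicClosure ℚ ≃ₐ[ℚ] AlgebraicClosure ℚ) (a₀ w : A) : Prop :=
  ∃ a b : A, a - a₀ ∈ maximalIdeal A ∧ IsUnit (a - b) ∧
    LinearMap.charpoly (ρ.ρ φ) = (X - C a) * (X - C b) ∧
    (a - b) * w = ρ.trace (φ * σ) - b * ρ.trace σ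

/-! ## Freeness over the group ring -/

/-- `M / (w_i^m - 1 : i) M` is **free over the group ring `𝒪[(ℤ/m)^r]`**, acting through the
`w_i`, with basis `b`: the elements `(∏ w_i^(a_i)) • b_j` (`a ∈ (Fin m)^r`, `j < d`) form an
`𝒪`-basis of the quotient. -/
def IsGroupRingBasis (𝒪 : Type) [CommRing 𝒪] {T : Type} [CommRing T] [Algebra 𝒪 T]
    {M : Type} [AddCommGroup M] [Module T M] (m : ℕ) {r d : ℕ} (w : Fin r → T)
    (b : Fin d → M) : Prop :=
  (∀ x : M, ∃ c : Fin d → (Fin r → Fin m) → 𝒪,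
      x - ∑ j, ∑ a, (algebraMap 𝒪 T (c j a) * ∏ i, w i ^ (a i : ℕ)) • b j ∈
        Ideal.span (Set.range fun i => w i ^ m - 1) • (⊤ : Submodule T M)) ∧
    ∀ c : Fin d → (Fin r → Fin m) → 𝒪,
      ∑ j, ∑ a, (algebraMap 𝒪 T (c j a) * ∏ i, w i ^ (a i : ℕ)) • b j ∈
          Ideal.span (Set.range fun i => w i ^ m - 1) • (⊤ : Submodule T M) →
        ∀ j a, c j a = 0

/-! ## Hecke packages -/

section Pkg

variable (p : ℕ)
  (𝒪 : Type) [CommRing 𝒪] [IsDomain 𝒪] [IsDiscreteValuationRing 𝒪]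
  [IsAdicComplete (maximalIdeal 𝒪) 𝒪]
  (ρbar : ResidualGaloisRep (ResidueField 𝒪))

/-- **A Hecke package of type `Σ`**: literally the data of `Arch.RTIso p 𝒪 ρ̄ t Smin Σ` before
the clause `∀ D φ, …` (see `rtIso_of_pkg`). -/
structure HeckePkg (t : PType) (Smin Sig : Finset ℕ) [NeZero (wilesLevel p t Smin Sig)] :
    Type 1 where
  /-- integral structure -/
  integral : Fact (CuspForm.HasIntegralStructure (wilesLevel p t Smin Sig) 2)
  /-- the residual Hecke character -/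
  θ : CuspForm.heckeAlgebra (wilesLevel p t Smin Sig) 2 (↑Sig : Set ℕ) →+* ResidueField 𝒪
  /-- `T` is local -/
  isLocalRing : IsLocalRing (CuspForm.heckeLocal (wilesLevel p t Smin Sig) (↑Sig : Set ℕ) 𝒪 θ)
  /-- `T` is Noetherian -/
  isNoetherianRing :
    IsNoetherianRing (CuspForm.heckeLocal (wilesLevel p t Smin Sig) (↑Sig : Set ℕ) 𝒪 θ)
  /-- `T` is complete -/
  isAdicComplete : IsAdicComplete
    (maximalIdeal (CuspForm.heckeLocal (wilesLevel p t Smin Sig) (↑Sig : Set ℕ) 𝒪 θ))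
    (CuspForm.heckeLocal (wilesLevel p t Smin Sig) (↑Sig : Set ℕ) 𝒪 θ)
  /-- `𝒪 → T` is local -/
  isLocalHom : IsLocalHom
    (algebraMap 𝒪 (CuspForm.heckeLocal (wilesLevel p t Smin Sig) (↑Sig : Set ℕ) 𝒪 θ))
  /-- `T` is finite over `𝒪` -/
  finite : Module.Finite 𝒪 (CuspForm.heckeLocal (wilesLevel p t Smin Sig) (↑Sig : Set ℕ) 𝒪 θ)
  /-- `T` is free over `𝒪` -/
  free : Module.Free 𝒪 (CuspForm.heckeLocal (wilesLevel p t Smin Sig) (↑Sig : Set ℕ) 𝒪 θ)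
  /-- the Hecke–Galois datum -/
  H : CuspForm.HeckeGaloisRepDatum (wilesLevel p t Smin Sig) (↑Sig : Set ℕ) 𝒪 θ
    (CuspForm.heckeLocal (wilesLevel p t Smin Sig) (↑Sig : Set ℕ) 𝒪 θ)
  /-- its Hecke structure is the canonical one -/
  hπ : H.π = CuspForm.heckeLocal.π (wilesLevel p t Smin Sig) (↑Sig : Set ℕ) 𝒪 θ
  /-- its residual representation is `ρ̄` -/
  hres : H.ρ.residual.IsEquiv (ρbar.baseChangeAlong (ResidueField.map (algebraMap 𝒪
    (CuspForm.heckeLocal (wilesLevel p t Smin Sig) (↑Sig : Set ℕ) 𝒪 θ))))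
  /-- it is of type `Σ` -/
  hcond : sigmaCond 𝒪 p t Smin Sig H.ρ

end Pkg

namespace HeckePkg

variable {p : ℕ}
  {𝒪 : Type} [CommRing 𝒪] [IsDomain 𝒪] [IsDiscreteValuationRing 𝒪]
  [IsAdicComplete (maximalIdeal 𝒪) 𝒪]
  {ρbar : ResidualGaloisRep (ResidueField 𝒪)} {t : PType} {Smin Sig : Finset ℕ}
  [NeZero (wilesLevel p t Smin Sig)] (P : HeckePkg p 𝒪 ρbar t Smin Sig)

/-- The Hecke ring of the package: the Prelude ring `heckeLocal N_Σ Σ 𝒪 θ`. -/
abbrev T : Type :=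
  CuspForm.heckeLocal (wilesLevel p t Smin Sig) (↑Sig : Set ℕ) 𝒪 P.θ

instance instIsLocalRingT : IsLocalRing P.T := P.isLocalRing

instance instIsNoetherianRingT : IsNoetherianRing P.T := P.isNoetherianRing

instance instIsAdicCompleteT : IsAdicComplete (maximalIdeal P.T) P.T := P.isAdicComplete

instance instIsLocalHomT : IsLocalHom (algebraMap 𝒪 P.T) := P.isLocalHom

instance instFiniteT : Module.Finite 𝒪 P.T := P.finite

instance instFreeT : Module.Free 𝒪 P.T := P.free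

end HeckePkg

section Statements

variable {p : ℕ}
  {𝒪 : Type} [CommRing 𝒪] [IsDomain 𝒪] [IsDiscreteValuationRing 𝒪]
  [IsAdicComplete (maximalIdeal 𝒪) 𝒪]
  {ρbar : ResidualGaloisRep (ResidueField 𝒪)} {t : PType} {Smin : Finset ℕ}

/-- **`RTIso` from a package**: `Arch.RTIso` is "there is a package such that every compatible
`φ : R_Σ → T_Σ` is bijective, with the numerical equality". -/
theorem rtIso_of_pkg {Sig : Finset ℕ} [hN : NeZero (wilesLevel p t Smin Sig)]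
    (P : HeckePkg p 𝒪 ρbar t Smin Sig)
    (h : ∀ (D : GaloisRep.DeformationRingData 𝒪 ρbar (sigmaCond 𝒪 p t Smin Sig))
      (φ : D.R →ₐ[𝒪] P.T),
      (∃ hφ : IsLocalHom (φ : D.R →+* P.T),
        (D.ρ.baseChangeAlong (φ : D.R →+* P.T) hφ).IsEquiv P.H.ρ) →
      Function.Bijective φ ∧
        ∃ π : P.T →ₐ[𝒪] 𝒪, Finite (NC.Cot (π.comp φ)) ∧
          Nat.card (NC.Cot (π.comp φ)) = Nat.card (𝒪 ⧸ NC.congIdeal π)) :
    RTIso p 𝒪 ρbar t Smin Sig :=
  ⟨hN, P.integral, P.θ, P.isLocalRing, P.isNoetherianRing, P.isAdicComplete,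
    P.isLocalHom, P.finite, P.free, P.H, P.hπ, P.hres, P.hcond, h⟩

/-- **The Hecke side at one Taylor–Wiles set `Q = {q_i}`** (level `n`), relative to the minimal
package `P₀` and its module `M₀`.

Classically: `P_Q.T = T_Q` acts on `M_Q = H¹(X_H(Q), 𝒪)_{𝔪_Q}` (`U_q - α̃_q ∈ 𝔪_Q`) through the
twisted operators `⟨ℓ⟩^(-1/2) T_ℓ`, `w_i` is the image of `⟨δ_i⟩^(∓1/2)` for a generator `δ_i` of
`Δ_{q_i}`, `M_Q` is free over `𝒪[Δ_Q]` and `M_Q / 𝔞_Q M_Q ≅ M₀`.  The data `(P_i, φ_i, σ_i, α_i)`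
(place over `q_i`, Frobenius, inertia element, lift to `𝒪` of the chosen Frobenius eigenvalue)
identify `w_i` Galois-theoretically, so that the deformation ring can see it. -/
def HasTWModule [NeZero (wilesLevel p t Smin Smin)] (P₀ : HeckePkg p 𝒪 ρbar t Smin Smin)
    (M₀ : Type) [AddCommGroup M₀] [Module P₀.T M₀] (n : ℕ) {r : ℕ} (qv : Fin r → ℕ) : Prop :=
  ∃ (_ : NeZero (wilesLevel p t Smin (Smin ∪ Finset.univ.image qv)))
    (PQ : HeckePkg p 𝒪 ρbar t Smin (Smin ∪ Finset.univ.image qv))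
    (res : PQ.T →ₐ[𝒪] P₀.T) (hres : IsLocalHom (res : PQ.T →+* P₀.T))
    (MQ : Type) (_ : AddCommGroup MQ) (_ : Module PQ.T MQ)
    (πQ : MQ →+ M₀)
    (Pv : Fin r → ValuationSubring (AlgebraicClosure ℚ))
    (φv σv : Fin r → (AlgebraicClosure ℚ ≃ₐ[ℚ] AlgebraicClosure ℚ))
    (αv : Fin r → 𝒪) (w : Fin r → PQ.T) (d : ℕ) (b : Fin d → MQ),
    (PQ.H.ρ.baseChangeAlong (res : PQ.T →+* P₀.T) hres).IsEquiv P₀.H.ρ ∧
    (∀ (a : PQ.T) (x : MQ), πQ (a • x) = res a • πQ x) ∧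
    Function.Surjective πQ ∧
    (∀ x : MQ, πQ x = 0 ↔
      x ∈ Ideal.span (Set.range fun i => w i - 1) • (⊤ : Submodule PQ.T MQ)) ∧
    (∀ i, (Pv i).LiesOverPrime (qv i) ∧ (Pv i).IsFrobeniusAt (φv i) (qv i) ∧
      σv i ∈ (Pv i).inertiaSubgroupIn ℚ ∧
      IsInertiaValue PQ.H.ρ (φv i) (σv i) (algebraMap 𝒪 PQ.T (αv i)) (w i)) ∧
    IsGroupRingBasis 𝒪 (p ^ n) w b

end Statements

/-! ## The leaves -/

/-- **LEAF HECKE (the mountain).**  Under the hypotheses of `Arch.MinRTStatement`: the minimal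
Hecke package with an `𝒪`-point and a nonzero module, and a Taylor–Wiles module for every
Taylor–Wiles set of every level. -/
def HeckeSideStatement : Prop :=
  ∀ (p : ℕ) [Fact p.Prime]
    (𝒪 : Type) [CommRing 𝒪] [IsDomain 𝒪] [IsDiscreteValuationRing 𝒪]
    [IsAdicComplete (maximalIdeal 𝒪) 𝒪] [Finite (ResidueField 𝒪)] [CharZero 𝒪]
    (ρbar : ResidualGaloisRep (ResidueField 𝒪)) (Smin : Finset ℕ)
    (_h : ResidualHyp p 𝒪 ρbar Smin) (t : PType)
    (_ht : (t = .flat ∧ (GaloisRepAdic.ofResidualGaloisRep ρbar).IsFlatAt p) ∨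
      (t = .sord ∧ (GaloisRepAdic.ofResidualGaloisRep ρbar).IsStrictOrdinaryAt p ∧
        ¬ (GaloisRepAdic.ofResidualGaloisRep ρbar).IsFlatAt p))
    (_hN : NeZero (wilesLevel p t Smin Smin))
    (χ : CuspForm.heckeAlgebra (wilesLevel p t Smin Smin) 2 (↑Smin : Set ℕ) →+* 𝒪)
    (_hχ : G4.ResFrobCond ρbar ((residue 𝒪).comp χ)),
    ∃ (P₀ : HeckePkg p 𝒪 ρbar t Smin Smin) (_pt : P₀.T →ₐ[𝒪] 𝒪)
      (M₀ : Type) (_ : AddCommGroup M₀) (_ : Module P₀.T M₀) (_ : Nontrivial M₀),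
      ∀ (n r : ℕ) (qv : Fin r → ℕ), IsTWSet p ρbar Smin n qv → HasTWModule P₀ M₀ n qv

/-- **LEAF GAL-RES** (cell TW-GAL; also used by cell NM).  For `Σ ⊆ Σ'` the universal
deformation ring of type `Σ'` surjects onto the one of type `Σ`, compatibly with the universal
deformations.  (The map exists by universality of `R_{Σ'}`: the conditions are monotone in `Σ`.
Surjectivity: let `R'` be the image; the push-forward of `ρ_{Σ'}` to `R'` is of type `Σ` because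
`R' ⊆ R_Σ`; universality of `R_Σ` gives a section.) -/
def DefRingResStatement : Prop :=
  ∀ (p : ℕ) [Fact p.Prime] (_hp2 : p ≠ 2)
    (𝒪 : Type) [CommRing 𝒪] [IsDomain 𝒪] [IsDiscreteValuationRing 𝒪]
    [IsAdicComplete (maximalIdeal 𝒪) 𝒪] [Finite (ResidueField 𝒪)]
    (_hp𝒪 : (p : 𝒪) ∈ maximalIdeal 𝒪)
    (ρbar : ResidualGaloisRep (ResidueField 𝒪)) (t : PType) (Smin Sig Sig' : Finset ℕ)
    (_hSig : Sig ⊆ Sig')
    (_hc : GaloisRep.IsDeformationCondition 𝒪 (sigmaCond 𝒪 p t Smin Sig))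
    (_hc' : GaloisRep.IsDeformationCondition 𝒪 (sigmaCond 𝒪 p t Smin Sig'))
    (D' : GaloisRep.DeformationRingData 𝒪 ρbar (sigmaCond 𝒪 p t Smin Sig'))
    (D : GaloisRep.DeformationRingData 𝒪 ρbar (sigmaCond 𝒪 p t Smin Sig)),
    ∃ res : D'.R →ₐ[𝒪] D.R, Function.Surjective res ∧
      ∃ hres : IsLocalHom (res : D'.R →+* D.R),
        (D'.ρ.baseChangeAlong (res : D'.R →+* D.R) hres).IsEquiv D.ρ

/-- **LEAF WEIERSTRASS** (Mathlib only).  `𝒪⟦X₁..X_r⟧ = ∑_a 𝒪·∏(1+X_i)^(a_i) + J_n`, where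
`J_n = ((1+X_j)^(p^n) - 1 : j)` and `a` runs over `(Fin (p^n))^r`: the group ring
`𝒪[(ℤ/p^n)^r]` maps ONTO `𝒪⟦X⟧/J_n`.
(`(1+X)^(p^n) - 1 ≡ X^(p^n)` modulo `p`; divide with remainder modulo `𝔪_𝒪`, then iterate and
use completeness of `𝒪` and closedness of `J_n`.) -/
def WeierstrassStatement : Prop :=
  ∀ (p : ℕ) [Fact p.Prime]
    (𝒪 : Type) [CommRing 𝒪] [IsDomain 𝒪] [IsDiscreteValuationRing 𝒪]
    [IsAdicComplete (maximalIdeal 𝒪) 𝒪] (_hp𝒪 : (p : 𝒪) ∈ maximalIdeal 𝒪)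
    (n r : ℕ) (f : MvPowerSeries (Fin r) 𝒪),
    ∃ c : (Fin r → Fin (p ^ n)) → 𝒪,
      f - ∑ a, algebraMap 𝒪 (MvPowerSeries (Fin r) 𝒪) (c a) *
          ∏ i, (1 + MvPowerSeries.X i) ^ (a i : ℕ) ∈
        Ideal.span (Set.range fun j : Fin r =>
          ((1 + MvPowerSeries.X j) ^ (p ^ n) - 1 : MvPowerSeries (Fin r) 𝒪))

/-- **LEAF NUM** (numerical equality for complete intersections; helper427's
`card_cotangent_eq_of_ci` + finiteness of the cotangent space of a reduced algebra).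
If `R ≅ T` is a quotient of `𝒪⟦X₁..X_r⟧` by `r` elements and `T` is finite free over `𝒪` and
reduced, then `#(𝔭/𝔭²) = #(𝒪/η) < ∞` at every augmentation. -/
def MinNumStatement : Prop :=
  ∀ (𝒪 : Type) [CommRing 𝒪] [IsDomain 𝒪] [IsDiscreteValuationRing 𝒪]
    [IsAdicComplete (maximalIdeal 𝒪) 𝒪] [Finite (ResidueField 𝒪)] [CharZero 𝒪]
    (r : ℕ) (R : Type) [CommRing R] [Algebra 𝒪 R]
    (T : Type) [CommRing T] [IsLocalRing T] [Algebra 𝒪 T] [Module.Finite 𝒪 T]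
    [Module.Free 𝒪 T] [IsReduced T]
    (φ : R →ₐ[𝒪] T) (_hφ : Function.Bijective φ)
    (ψ : MvPowerSeries (Fin r) 𝒪 →ₐ[𝒪] R) (_hψ : Function.Surjective ψ)
    (g : Fin r → MvPowerSeries (Fin r) 𝒪) (_hker : RingHom.ker ψ = Ideal.span (Set.range g))
    (π : T →ₐ[𝒪] 𝒪),
    Finite (NC.Cot (π.comp φ)) ∧
      Nat.card (NC.Cot (π.comp φ)) = Nat.card (𝒪 ⧸ NC.congIdeal π)

/-- **LEAF TW-PRIMES** = the frozen S56 in the vocabulary of `sigmaCond`
(adapter `twPrimes_of_S56` in `TW/H959/Glue.lean`). -/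
def TWPrimesStatement : Prop :=
  ∀ (p : ℕ) [Fact p.Prime]
    (𝒪 : Type) [CommRing 𝒪] [IsDomain 𝒪] [IsDiscreteValuationRing 𝒪]
    [IsAdicComplete (maximalIdeal 𝒪) 𝒪] [Finite (ResidueField 𝒪)]
    (ρbar : ResidualGaloisRep (ResidueField 𝒪)) (Smin : Finset ℕ)
    (_h : ResidualHyp p 𝒪 ρbar Smin) (t : PType) (_ht : t = .flat ∨ t = .sord),
    ∃ r : ℕ, ∀ n : ℕ, ∃ qv : Fin r → ℕ, IsTWSet p ρbar Smin n qv ∧
      ∀ DQ : GaloisRep.DeformationRingData 𝒪 ρbar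
          (sigmaCond 𝒪 p t Smin (Smin ∪ Finset.univ.image qv)),
        ∃ γ : MvPowerSeries (Fin r) 𝒪 →ₐ[𝒪] DQ.R, Function.Surjective γ

/-- The frozen S53 (existence of universal deformation rings), as a `Prop`. -/
def DefRingExistsStatement : Prop :=
  ∀ (𝒪 : Type) [CommRing 𝒪] [IsDomain 𝒪] [IsDiscreteValuationRing 𝒪]
    [IsAdicComplete (IsLocalRing.maximalIdeal 𝒪) 𝒪] [Finite (IsLocalRing.ResidueField 𝒪)]
    (ρbar : ResidualGaloisRep (IsLocalRing.ResidueField 𝒪))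
    (𝒟 : ∀ ⦃A : Type⦄ [CommRing A] [IsLocalRing A] [Algebra 𝒪 A], GaloisRepAdic A → Prop)
    (_habs : ρbar.IsAbsolutelyIrreducible)
    (_h𝒟 : GaloisRep.IsDeformationCondition 𝒪 𝒟)
    (_hbar : 𝒟 (GaloisRepAdic.ofResidualGaloisRep ρbar))
    (_hfin : GaloisRep.TangentFinite 𝒪 ρbar 𝒟),
    Nonempty (GaloisRep.DeformationRingData 𝒪 ρbar 𝒟)

/-- The frozen S54 (`R ↠ T`), as a `Prop`. -/
def RToTStatement : Prop :=
  ∀ {𝒪 : Type} [CommRing 𝒪] [IsDomain 𝒪] [IsDiscreteValuationRing 𝒪]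
    [IsAdicComplete (IsLocalRing.maximalIdeal 𝒪) 𝒪]
    {ρbar : ResidualGaloisRep (IsLocalRing.ResidueField 𝒪)}
    {𝒟 : ∀ ⦃A : Type⦄ [CommRing A] [IsLocalRing A] [Algebra 𝒪 A], GaloisRepAdic A → Prop}
    (D : GaloisRep.DeformationRingData 𝒪 ρbar 𝒟) {N : ℕ} [NeZero N] {S : Set ℕ}
    {θ : CuspForm.heckeAlgebra N 2 S →+* IsLocalRing.ResidueField 𝒪}
    {T : Type} [CommRing T] [IsLocalRing T] [IsNoetherianRing T]
    [IsAdicComplete (IsLocalRing.maximalIdeal T) T] [Algebra 𝒪 T] [IsLocalHom (algebraMap 𝒪 T)]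
    [Module.Finite 𝒪 T] [Module.Free 𝒪 T] (H : CuspForm.HeckeGaloisRepDatum N S 𝒪 θ T)
    (_hS : ∀ q : ℕ, q.Prime → q ∣ N → q ∈ S) (_h𝒟 : 𝒟 H.ρ)
    (_hres : H.ρ.residual.IsEquiv
      (ρbar.baseChangeAlong (IsLocalRing.ResidueField.map (algebraMap 𝒪 T)))),
    ∃ φ : D.R →ₐ[𝒪] T, Function.Surjective φ ∧ ∃ hφ : IsLocalHom (φ : D.R →+* T),
      (D.ρ.baseChangeAlong (φ : D.R →+* T) hφ).IsEquiv H.ρ

end Fermat.Agent.S59.TW.H959
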