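import Fermat.Agent.S59.TW.H959.WirePlus
import Fermat.Agent.S59.TW.H24.Bridge
import Fermat.Agent.S59.TW.Aut.H511.Idem
import Fermat.Agent.S59.TW.Aut.H511.Cusp
import Fermat.Agent.S59.TW.Aut.H564.ModQ
import Fermat.Agent.S59.TW.Aut.H581.Nontriv
import Fermat.Agent.S59.TW.Aut.H779.FreeQ
import Fermat.Agent.S59.H105.CtrlClosed
import Fermat.Agent.S56.FinalC4

/-!
# Row S59, cell TW: the top of the cell, `Plus` form (helper959)

Everything closed on main is plugged: S56 (`S56.result_of_baseBig S56.baseBig`, the plain chain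
of the frozen statement S56), S53, S54, COND, DefRingRes, Weierstrass, MinNum, RED (layer 1),
RESG, INX, INO, CYC, ALG (layer 2, helper24), IDEM, CUSP-MIN, MOD0 (helper511, helper709),
MODQ (helper564), NONTRIV (helper581), FREE (helper779, helper181), CTRL (helper105),
BRIDGE (helper24).
Open: PKG (⇐ frozen S33, `TW.H659.pkg_of`) and the leaf CMP of layer 3 (layer 4: helper314).

    minRTPlusH_of_cmp : TW.PkgStatement → Aut.CmpStatement → Arch.MinRTPlusHStatement
-/

set_option autoImplicit false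

namespace Fermat.Agent.S59.TW.H959

open Fermat.Agent.S59 Fermat.Agent.S59.Arch

/-- The frozen S56, from the plain chain on main. -/
theorem s56Statement : S56Statement :=
  fun {_} _ _ _ _ _ p _ hp2 hp𝒪 ρbar habs hdet hsplit hTW S Smin hpSmin hSmin hS hmin =>
    Fermat.Agent.S56.result_of_baseBig Fermat.Agent.S56.baseBig p hp2 hp𝒪 ρbar habs hdet hsplit
      hTW S Smin hpSmin hSmin hS hmin

/-- The bridge clause of the `Plus` form (leaf BRIDGE, closed). -/
theorem bridgeStatement : TW.H24.BridgeStatement :=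
  TW.H24.bridge_of_cuspMin TW.Aut.H511.cuspMin

/-- **Cell TW, `Plus` form**, from PKG and layer 3 (AUT-PLUS). -/
theorem minRTPlusH_of_pkg_aut (hPkg : TW.PkgStatement) (hAut : TW.AutPlusStatement) :
    Arch.MinRTPlusHStatement :=
  minRTPlusH_of s56Statement (TW.pkgPlus_of_pkg hPkg) hAut

/-- **Cell TW, `Plus` form**, from PKG and the three leaves FREE, CTRL, CMP of layer 3. -/
theorem minRTPlusH_of_open (hPkg : TW.PkgStatement)
    (hFree : TW.Aut.FreeQStatement) (hCtrl : TW.Aut.CtrlStatement)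
    (hCmp : TW.Aut.CmpStatement) : Arch.MinRTPlusHStatement :=
  minRTPlusH_of_aut s56Statement (TW.pkgPlus_of_pkg hPkg) TW.Aut.H511.idem TW.Aut.H511.mod0
    TW.Aut.H581.nontriv TW.Aut.H564.modQ hFree hCtrl hCmp bridgeStatement

/-- **Cell TW, `Plus` form**, from the open leaves PKG and CMP (FREE, CTRL plugged). -/
theorem minRTPlusH_of_cmp (hPkg : TW.PkgStatement) (hCmp : TW.Aut.CmpStatement) :
    Arch.MinRTPlusHStatement :=
  minRTPlusH_of_open hPkg TW.Aut.H779.freeQ_h779 H105.ctrl hCmp

end Fermat.Agent.S59.TW.H959
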