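import Fermat.Agent.S59.TW.H959.Iface

/-!
# Row S59 / HARD, cell TW: from a Taylor–Wiles level to a patching level (helper959)

Pure algebra.  Data: a surjection `g : Λ = 𝒪⟦X₁..X_r⟧ ↠ T_Q`, a `T_Q`-module `M_Q`, elements
`w_i ∈ T_Q` ("diamond operators"), a substitution `φ : Λ → Λ` with `g (φ X_i) = w_i - 1`,
a surjection `ψ : Λ ↠ R` with `ψ (φ X_i) = 0`, a `ψ`-semilinear surjection `π_Q : M_Q → M`
with kernel `(w_i - 1) M_Q`, such that `M_Q / (w_i^m - 1)` is free over the group ring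
`𝒪[(ℤ/m)^r]` (`IsGroupRingBasis`) and `Λ` is spanned modulo `J = ((1+X_j)^m - 1)` by the
group-ring monomials (`WeierstrassStatement`).  Then `N := M_Q / (w_i^m - 1) M_Q` is a
`Algebra.PatchingLevel 𝒪 r R M J`.
-/

set_option autoImplicit false
set_option linter.style.haveILetI false
set_option linter.unusedSectionVars false

open MvPowerSeries

namespace Fermat.Agent.S59.TW.H959

section Abs

variable {𝒪 : Type} [CommRing 𝒪] {r : ℕ} {R : Type} [CommRing R] [Algebra 𝒪 R]
  {M : Type} [AddCommGroup M] [Module R M]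
  {TQ : Type} [CommRing TQ] [Algebra 𝒪 TQ] {MQ : Type} [AddCommGroup MQ] [Module TQ MQ]

/-- the relation ideal `((1 + X_j)^m - 1 : j)` of `𝒪⟦X₁..X_r⟧` -/
noncomputable abbrev relJ (𝒪 : Type) [CommRing 𝒪] (r m : ℕ) : Ideal (MvPowerSeries (Fin r) 𝒪) :=
  Ideal.span (Set.range fun j : Fin r => ((1 + X j) ^ m - 1 : MvPowerSeries (Fin r) 𝒪))

/-- the group-ring monomial combination `∑_a c_a ∏ (1+X_i)^(a_i)` -/
noncomputable def grpElt (m : ℕ) (c : (Fin r → Fin m) → 𝒪) : MvPowerSeries (Fin r) 𝒪 :=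
  ∑ a, algebraMap 𝒪 (MvPowerSeries (Fin r) 𝒪) (c a) * ∏ i, (1 + X i) ^ (a i : ℕ)

/-- the submodule `(w_i^m - 1 : i) M_Q` -/
abbrev relK (MQ : Type) [AddCommGroup MQ] [Module TQ MQ] (m : ℕ) (w : Fin r → TQ) :
    Submodule TQ MQ :=
  Ideal.span (Set.range fun i => w i ^ m - 1) • (⊤ : Submodule TQ MQ)

variable (m : ℕ) (g : MvPowerSeries (Fin r) 𝒪 →ₐ[𝒪] TQ)
  (ψ : MvPowerSeries (Fin r) 𝒪 →ₐ[𝒪] R)
  (φ : MvPowerSeries (Fin r) 𝒪 →ₐ[𝒪] MvPowerSeries (Fin r) 𝒪)
  (w : Fin r → TQ)

theorem g_phi_one_add_X (hgφ : ∀ i, g (φ (X i)) = w i - 1) (i : Fin r) :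
    g (φ (1 + X i)) = w i := by
  rw [map_add, map_add, map_one, map_one, hgφ]
  ring

theorem g_phi_grpElt (hgφ : ∀ i, g (φ (X i)) = w i - 1) (c : (Fin r → Fin m) → 𝒪) :
    g (φ (grpElt m c)) = ∑ a, algebraMap 𝒪 TQ (c a) * ∏ i, w i ^ (a i : ℕ) := by
  unfold grpElt
  rw [map_sum, map_sum]
  refine Finset.sum_congr rfl fun a _ => ?_
  rw [map_mul, map_mul, AlgHom.commutes, AlgHom.commutes, map_prod, map_prod]
  congr 1
  refine Finset.prod_congr rfl fun i _ => ?_
  rw [map_pow, map_pow, g_phi_one_add_X g φ w hgφ]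

theorem g_phi_mem_of_mem_relJ (hgφ : ∀ i, g (φ (X i)) = w i - 1)
    {f : MvPowerSeries (Fin r) 𝒪} (hf : f ∈ relJ 𝒪 r m) :
    g (φ f) ∈ Ideal.span (Set.range fun i => w i ^ m - 1) := by
  have : relJ 𝒪 r m ≤ (Ideal.span (Set.range fun i => w i ^ m - 1)).comap
      ((g : MvPowerSeries (Fin r) 𝒪 →+* TQ).comp (φ : _ →+* MvPowerSeries (Fin r) 𝒪)) := by
    rw [Ideal.span_le]
    rintro _ ⟨j, rfl⟩
    show g (φ ((1 + X j) ^ m - 1)) ∈ Ideal.span (Set.range fun i => w i ^ m - 1)
    rw [map_sub, map_sub, map_pow, map_pow, map_one, map_one, g_phi_one_add_X g φ w hgφ]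
    exact Ideal.subset_span ⟨j, rfl⟩
  exact this hf

theorem relK_le_ker (πQ : MQ →+ M)
    (hker : ∀ x : MQ, πQ x = 0 ↔
      x ∈ Ideal.span (Set.range fun i => w i - 1) • (⊤ : Submodule TQ MQ)) :
    ∀ x ∈ relK MQ m w, πQ x = 0 := by
  intro x hx
  rw [hker]
  have hle : Ideal.span (Set.range fun i => w i ^ m - 1) ≤
      Ideal.span (Set.range fun i => w i - 1) := by
    rw [Ideal.span_le]
    rintro _ ⟨i, rfl⟩
    have hdvd : w i - 1 ∣ w i ^ m - 1 := by
      have := sub_dvd_pow_sub_pow (w i) 1 m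
      rwa [one_pow] at this
    obtain ⟨c, hc⟩ := hdvd
    show w i ^ m - 1 ∈ Ideal.span (Set.range fun i => w i - 1)
    rw [hc]
    exact Ideal.mul_mem_right _ _ (Ideal.subset_span ⟨i, rfl⟩)
  exact Submodule.smul_mono_left hle hx

/-- **From a Taylor–Wiles level to a patching level.** -/
theorem exists_patchingLevel
    (hψ : Function.Surjective ψ)
    (hgφ : ∀ i, g (φ (X i)) = w i - 1) (hψφ : ∀ i, ψ (φ (X i)) = 0)
    (πQ : MQ →+ M) (hπ : ∀ (f : MvPowerSeries (Fin r) 𝒪) (x : MQ), πQ (g f • x) = ψ f • πQ x)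
    (hπs : Function.Surjective πQ)
    (hker : ∀ x : MQ, πQ x = 0 ↔
      x ∈ Ideal.span (Set.range fun i => w i - 1) • (⊤ : Submodule TQ MQ))
    {d : ℕ} (b : Fin d → MQ) (hb : IsGroupRingBasis 𝒪 m w b)
    (hW : ∀ f : MvPowerSeries (Fin r) 𝒪, ∃ c : (Fin r → Fin m) → 𝒪,
      f - grpElt m c ∈ relJ 𝒪 r m) :
    Nonempty (Algebra.PatchingLevel 𝒪 r R M (relJ 𝒪 r m)) := by
  classical
  -- the module `N`
  letI instN : Module (MvPowerSeries (Fin r) 𝒪) (MQ ⧸ relK MQ m w) :=
    Module.compHom (MQ ⧸ relK MQ m w) (g : MvPowerSeries (Fin r) 𝒪 →+* TQ)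
  have hsmul : ∀ (f : MvPowerSeries (Fin r) 𝒪) (x : MQ),
      f • (Submodule.Quotient.mk x : MQ ⧸ relK MQ m w) = Submodule.Quotient.mk (g f • x) :=
    fun f x => rfl
  -- the map `π`
  let π₀ : (MQ ⧸ relK MQ m w) →+ M :=
    QuotientAddGroup.lift (relK MQ m w).toAddSubgroup πQ
      (fun x hx => relK_le_ker m w πQ hker x hx)
  have hπ₀ : ∀ x : MQ, π₀ (Submodule.Quotient.mk x) = πQ x := fun x => rfl
  -- vanishing of `J`
  have hJ0 : ∀ f ∈ relJ 𝒪 r m, ∀ x : MQ,
      (φ f) • (Submodule.Quotient.mk x : MQ ⧸ relK MQ m w) = 0 := by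
    intro f hf x
    rw [hsmul, Submodule.Quotient.mk_eq_zero]
    exact Submodule.smul_mem_smul (g_phi_mem_of_mem_relJ m g φ w hgφ hf) Submodule.mem_top
  -- sums
  have hsum : ∀ c : Fin d → MvPowerSeries (Fin r) 𝒪,
      (∑ j, φ (c j) • (Submodule.Quotient.mk (b j) : MQ ⧸ relK MQ m w)) =
        Submodule.Quotient.mk (∑ j, g (φ (c j)) • b j) := by
    intro c
    have h1 : (Submodule.Quotient.mk (∑ j, g (φ (c j)) • b j) : MQ ⧸ relK MQ m w) =
        ∑ j, Submodule.Quotient.mk (g (φ (c j)) • b j) :=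
      map_sum (Submodule.mkQ (relK MQ m w)) _ _
    rw [h1]
    exact Finset.sum_congr rfl fun j _ => hsmul _ _
  have hgrp : ∀ c : Fin d → (Fin r → Fin m) → 𝒪,
      (∑ j, g (φ (grpElt m (c j))) • b j) =
        ∑ j, ∑ a, (algebraMap 𝒪 TQ (c j a) * ∏ i, w i ^ (a i : ℕ)) • b j := by
    intro c
    refine Finset.sum_congr rfl fun j _ => ?_
    rw [g_phi_grpElt m g φ w hgφ, Finset.sum_smul]
  refine ⟨
    { N := MQ ⧸ relK MQ m w
      instAddCommGroup := inferInstance
      instModule := instN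
      φ := φ
      ψ := ψ
      ψ_surjective := hψ
      ψ_φ_X := hψφ
      π := π₀
      π_smul := ?_
      π_surjective := ?_
      ker_π := ?_
      d := d
      b := fun j => Submodule.Quotient.mk (b j)
      b_span := ?_
      b_rel := ?_ }⟩
  · -- π_smul
    intro f x
    obtain ⟨x, rfl⟩ := Submodule.Quotient.mk_surjective _ x
    rw [hsmul, hπ₀, hπ₀, hπ]
  · -- π_surjective
    intro y
    obtain ⟨x, rfl⟩ := hπs y
    exact ⟨Submodule.Quotient.mk x, hπ₀ x⟩
  · -- ker_π
    intro x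
    obtain ⟨x, rfl⟩ := Submodule.Quotient.mk_surjective _ x
    rw [hπ₀]
    constructor
    · intro hx
      have hx' := (hker x).mp hx
      -- every `t • y`, `t ∈ (w_i - 1)`, lies in the submodule
      have key : ∀ t ∈ Ideal.span (Set.range fun i => w i - 1), ∀ y : MQ,
          (Submodule.Quotient.mk (t • y) : MQ ⧸ relK MQ m w) ∈
            Ideal.span (Set.range fun i : Fin r => φ (X i)) •
              (⊤ : Submodule (MvPowerSeries (Fin r) 𝒪) (MQ ⧸ relK MQ m w)) := by
        intro t ht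
        refine Submodule.span_induction (p := fun t _ => ∀ y : MQ,
          (Submodule.Quotient.mk (t • y) : MQ ⧸ relK MQ m w) ∈
            Ideal.span (Set.range fun i : Fin r => φ (X i)) •
              (⊤ : Submodule (MvPowerSeries (Fin r) 𝒪) (MQ ⧸ relK MQ m w))) ?_ ?_ ?_ ?_ ht
        · rintro _ ⟨i, rfl⟩ y
          have : (Submodule.Quotient.mk ((w i - 1) • y) : MQ ⧸ relK MQ m w) =
              φ (X i) • (Submodule.Quotient.mk y : MQ ⧸ relK MQ m w) := by
            rw [hsmul, hgφ]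
          rw [this]
          exact Submodule.smul_mem_smul (Ideal.subset_span ⟨i, rfl⟩) Submodule.mem_top
        · intro y
          rw [zero_smul]
          exact Submodule.zero_mem _
        · intro s t _ _ hs ht y
          rw [add_smul]
          exact Submodule.add_mem _ (hs y) (ht y)
        · intro s t _ ht y
          rw [smul_eq_mul, mul_comm, mul_smul]
          exact ht (s • y)
      refine Submodule.smul_induction_on (p := fun x =>
        (Submodule.Quotient.mk x : MQ ⧸ relK MQ m w) ∈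
          Ideal.span (Set.range fun i : Fin r => φ (X i)) •
            (⊤ : Submodule (MvPowerSeries (Fin r) 𝒪) (MQ ⧸ relK MQ m w))) hx' ?_ ?_
      · intro t ht y _
        exact key t ht y
      · intro x y hx hy
        exact Submodule.add_mem _ hx hy
    · intro hx
      have hψ0 : ∀ f ∈ Ideal.span (Set.range fun i : Fin r => φ (X i)), ψ f = 0 := by
        intro f hf
        have hle : Ideal.span (Set.range fun i : Fin r => φ (X i)) ≤
            RingHom.ker (ψ : MvPowerSeries (Fin r) 𝒪 →+* R) := by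
          rw [Ideal.span_le]
          rintro _ ⟨i, rfl⟩
          exact hψφ i
        exact hle hf
      have key : ∀ y ∈ Ideal.span (Set.range fun i : Fin r => φ (X i)) •
          (⊤ : Submodule (MvPowerSeries (Fin r) 𝒪) (MQ ⧸ relK MQ m w)), π₀ y = 0 := by
        intro y hy
        refine Submodule.smul_induction_on (p := fun y => π₀ y = 0) hy ?_ ?_
        · intro f hf y _
          obtain ⟨y, rfl⟩ := Submodule.Quotient.mk_surjective _ y
          rw [hsmul, hπ₀, hπ, hψ0 f hf, zero_smul]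
        · intro x y hx hy
          rw [map_add, hx, hy, add_zero]
      have := key _ hx
      rwa [hπ₀] at this
  · -- b_span
    intro x
    obtain ⟨x, rfl⟩ := Submodule.Quotient.mk_surjective _ x
    obtain ⟨c, hc⟩ := hb.1 x
    refine ⟨fun j => grpElt m (c j), ?_⟩
    rw [hsum, hgrp]
    exact (Submodule.Quotient.eq _).mpr hc
  · -- b_rel
    intro c
    constructor
    · intro h0
      choose c' hc' using fun j => hW (c j)
      -- the group-ring part vanishes
      have h1 : (∑ j, φ (grpElt m (c' j)) •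
          (Submodule.Quotient.mk (b j) : MQ ⧸ relK MQ m w)) = 0 := by
        have h2 : ∀ j, φ (grpElt m (c' j)) •
            (Submodule.Quotient.mk (b j) : MQ ⧸ relK MQ m w) =
            φ (c j) • (Submodule.Quotient.mk (b j) : MQ ⧸ relK MQ m w) -
              φ (c j - grpElt m (c' j)) • Submodule.Quotient.mk (b j) := by
          intro j
          rw [← sub_smul, ← map_sub, sub_sub_cancel]
        rw [Finset.sum_congr rfl fun j _ => h2 j, Finset.sum_sub_distrib, h0,
          Finset.sum_eq_zero fun j _ => hJ0 _ (hc' j) (b j), sub_zero]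
      rw [hsum, hgrp, Submodule.Quotient.mk_eq_zero] at h1
      have h3 := hb.2 c' h1
      intro j
      have h4 : grpElt m (c' j) = 0 := by
        unfold grpElt
        refine Finset.sum_eq_zero fun a _ => ?_
        rw [h3 j a, map_zero, zero_mul]
      have := hc' j
      rwa [h4, sub_zero] at this
    · intro hc
      exact Finset.sum_eq_zero fun j _ => hJ0 _ (hc j) (b j)

end Abs

end Fermat.Agent.S59.TW.H959
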