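import Fermat.Agent.S59.TW.H959.Iface
import Fermat.Agent.S59.Arch.Glue

/-!
# Row S59 / HARD, cell TW: the inertia value (helper959)

`IsInertiaValue ρ φ σ a₀ w` (defined in `Iface.lean`) is the Galois-theoretic description of the
"diamond operator" at a Taylor–Wiles prime, by a formula in traces.  This file proves that it is

* unique (`IsInertiaValue.unique`),
* compatible with base change along local homomorphisms (`IsInertiaValue.map`) and with
  equivalence of representations (`IsInertiaValue.of_isEquiv`),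
* equal to `1` when `ρ σ = 1` (`IsInertiaValue.eq_one`),
* liftable along local homomorphisms out of a complete local ring
  (`exists_isInertiaValue_of_map`, Hensel's lemma).

So for `R_Q → T_Q → T₀` and `R_Q → R_min` the elements `w_i - 1` correspond to each other and
die in `R_min`: this is all the patching argument needs from the local structure at `Q`.
-/

set_option autoImplicit false
set_option linter.style.haveILetI false

open Polynomial IsLocalRing

namespace Fermat.Agent.S59.TW.H959

open Fermat.Agent.S59.Arch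

/-! ### Traces -/

section Trace

variable {A : Type} [CommRing A] [IsLocalRing A]

theorem trace_eq_neg_nextCoeff_charpoly {R M : Type*} [CommRing R] [AddCommGroup M] [Module R M]
    [Module.Free R M] [Module.Finite R M] (f : Module.End R M) :
    LinearMap.trace R M f = -(LinearMap.charpoly f).nextCoeff := by
  classical
  let b := Module.Free.chooseBasis R M
  rw [LinearMap.trace_eq_matrix_trace R b f, Matrix.trace_eq_neg_charpoly_nextCoeff,
    LinearMap.charpoly_toMatrix]

theorem trace_eq_add_of_charpoly {R M : Type*} [CommRing R] [Nontrivial R] [AddCommGroup M]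
    [Module R M] [Module.Free R M] [Module.Finite R M] (f : Module.End R M) {a b : R}
    (h : LinearMap.charpoly f = (X - C a) * (X - C b)) :
    LinearMap.trace R M f = a + b := by
  rw [trace_eq_neg_nextCoeff_charpoly, h,
    Polynomial.Monic.nextCoeff_mul (monic_X_sub_C a) (monic_X_sub_C b),
    nextCoeff_X_sub_C, nextCoeff_X_sub_C]
  ring

theorem trace_eq_of_isEquiv {ρ₁ ρ₂ : GaloisRepAdic A} (h : ρ₁.IsEquiv ρ₂) (σ : GQ) :
    ρ₁.trace σ = ρ₂.trace σ := by
  obtain ⟨e⟩ := h
  have hconj : ρ₂.ρ σ = e.toLinearEquiv.conj (ρ₁.ρ σ) := by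
    apply LinearMap.ext
    intro y
    rw [LinearEquiv.conj_apply_apply]
    rw [e.map_apply, LinearEquiv.apply_symm_apply]
  unfold GaloisRepAdic.trace
  rw [hconj, LinearMap.trace_conj']

theorem trace_baseChangeAlong {B : Type} [CommRing B] [IsLocalRing B] (f : A →+* B)
    (hf : IsLocalHom f) (ρ : GaloisRepAdic A) (σ : GQ) :
    (ρ.baseChangeAlong f hf).trace σ = f (ρ.trace σ) := by
  letI : Algebra A B := f.toAlgebra
  exact LinearMap.trace_baseChange (ρ.ρ σ) B

end Trace

/-! ### Roots of split quadratics in a local ring -/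

section Roots

variable {A : Type} [CommRing A] [IsLocalRing A]

/-- Two factorisations of the same quadratic with congruent first roots and a unit
discriminant coincide. -/
theorem roots_unique {a b a' b' : A} (h : (X - C a) * (X - C b) = (X - C a') * (X - C b'))
    (hu : IsUnit (a - b)) (hc : a' - a ∈ maximalIdeal A) : a' = a ∧ b' = b := by
  have h1 := congrArg (Polynomial.eval a') h
  simp only [eval_mul, eval_sub, eval_X, eval_C, sub_self, zero_mul] at h1
  have hu' : IsUnit (a' - b) := by
    have : a' - b = (a - b) + (a' - a) := by ring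
    rw [this]
    by_contra hn
    have hn' : (a - b) + (a' - a) ∈ maximalIdeal A := hn
    have : a - b ∈ maximalIdeal A := by
      have := (maximalIdeal A).sub_mem hn' hc
      simpa using this
    exact this hu
  have ha : a' = a := by
    have := (hu'.mul_left_eq_zero).mp h1
    exact sub_eq_zero.mp this
  refine ⟨ha, ?_⟩
  subst ha
  have h2 := congrArg (fun P : A[X] => P.coeff 0) h
  have h3 := congrArg (fun P : A[X] => P.coeff 1) h
  simp only [mul_coeff_zero, coeff_sub, coeff_X_zero, coeff_C_zero, zero_sub] at h2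
  have e1 : ((X - C a') * (X - C b) : A[X]) = X ^ 2 - C (a' + b) * X + C (a' * b) := by
    simp only [map_add, map_mul]; ring
  have e2 : ((X - C a') * (X - C b') : A[X]) = X ^ 2 - C (a' + b') * X + C (a' * b') := by
    simp only [map_add, map_mul]; ring
  rw [e1, e2] at h3
  simp only [coeff_add, coeff_sub, coeff_X_pow, coeff_C_mul, coeff_X_one, coeff_C] at h3
  norm_num at h3
  linear_combination -h3

end Roots

/-! ### The inertia value -/

section Inertia

variable {A : Type} [CommRing A] [IsLocalRing A]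

theorem IsInertiaValue.unique {ρ : GaloisRepAdic A} {φ σ : GQ} {a₀ w w' : A}
    (h : IsInertiaValue ρ φ σ a₀ w) (h' : IsInertiaValue ρ φ σ a₀ w') : w = w' := by
  obtain ⟨a, b, ha, hu, hc, hw⟩ := h
  obtain ⟨a', b', ha', -, hc', hw'⟩ := h'
  have hcong : a' - a ∈ maximalIdeal A := by
    have := (maximalIdeal A).sub_mem ha' ha
    simpa using this
  obtain ⟨rfl, rfl⟩ := roots_unique (hc.symm.trans hc') hu hcong
  exact hu.mul_left_cancel (hw.trans hw'.symm)

theorem IsInertiaValue.of_isEquiv {ρ ρ' : GaloisRepAdic A} (he : ρ.IsEquiv ρ') {φ σ : GQ}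
    {a₀ w : A} (h : IsInertiaValue ρ φ σ a₀ w) : IsInertiaValue ρ' φ σ a₀ w := by
  obtain ⟨a, b, ha, hu, hc, hw⟩ := h
  refine ⟨a, b, ha, hu, ?_, ?_⟩
  · rw [← charpoly_eq_of_isEquiv he, hc]
  · rw [← trace_eq_of_isEquiv he, ← trace_eq_of_isEquiv he, hw]

theorem IsInertiaValue.map {B : Type} [CommRing B] [IsLocalRing B] (f : A →+* B)
    (hf : IsLocalHom f) {ρ : GaloisRepAdic A} {φ σ : GQ} {a₀ w : A}
    (h : IsInertiaValue ρ φ σ a₀ w) :
    IsInertiaValue (ρ.baseChangeAlong f hf) φ σ (f a₀) (f w) := by
  obtain ⟨a, b, ha, hu, hc, hw⟩ := h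
  refine ⟨f a, f b, ?_, ?_, ?_, ?_⟩
  · rw [← map_sub]
    exact haveI := hf; map_nonunit f _ ha
  · rw [← map_sub]
    exact hu.map f
  · rw [charpoly_baseChangeAlong, hc, Polynomial.map_mul, Polynomial.map_sub,
      Polynomial.map_sub, Polynomial.map_X, Polynomial.map_C, Polynomial.map_C]
  · rw [trace_baseChangeAlong, trace_baseChangeAlong, ← map_sub, ← map_mul, ← map_mul,
      ← map_sub, hw]

/-- If `σ` acts trivially, the inertia value is `1`. -/
theorem IsInertiaValue.eq_one {ρ : GaloisRepAdic A} {φ σ : GQ} {a₀ w : A}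
    (h : IsInertiaValue ρ φ σ a₀ w) (hσ : ρ.ρ σ = 1) : w = 1 := by
  obtain ⟨a, b, -, hu, hc, hw⟩ := h
  have h1 : ρ.trace (φ * σ) = a + b := by
    unfold GaloisRepAdic.trace
    rw [map_mul, hσ, mul_one]
    exact trace_eq_add_of_charpoly _ hc
  have h2 : ρ.trace σ = 2 := by
    unfold GaloisRepAdic.trace
    rw [hσ, LinearMap.trace_one, ρ.finrank_eq]
    norm_num
  rw [h1, h2] at hw
  have : (a - b) * w = (a - b) * 1 := by rw [hw]; ring
  exact hu.mul_left_cancel this

/-- If `ρ` is unramified at `q`, the inertia value at `q` is `1`. -/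
theorem IsInertiaValue.eq_one_of_isUnramifiedAt {ρ : GaloisRepAdic A} {φ σ : GQ} {a₀ w : A}
    (h : IsInertiaValue ρ φ σ a₀ w) {q : ℕ} (hq : ρ.IsUnramifiedAt q)
    {P : ValuationSubring (AlgebraicClosure ℚ)} (hP : P.LiesOverPrime q)
    (hσ : σ ∈ P.inertiaSubgroupIn ℚ) : w = 1 :=
  h.eq_one (hq P hP σ hσ)

/-- A split quadratic: a monic polynomial of degree `2` with a root `a` is `(X - a)(X - b)`. -/
theorem exists_factor_of_root {P : A[X]} (hP : P.Monic) (hdeg : P.natDegree = 2) {a : A}
    (ha : P.IsRoot a) : ∃ b : A, P = (X - C a) * (X - C b) := by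
  have hd : P.degree ≤ 2 := by
    rw [Polynomial.degree_eq_natDegree hP.ne_zero, hdeg]; rfl
  have h2 : P.coeff 2 = 1 := by
    have := hP.coeff_natDegree
    rwa [hdeg] at this
  obtain ⟨c₁, c₀, hq⟩ : ∃ c₁ c₀ : A, P = X ^ 2 + C c₁ * X + C c₀ := by
    refine ⟨P.coeff 1, P.coeff 0, ?_⟩
    have hq := Polynomial.eq_quadratic_of_degree_le_two hd
    rw [h2, map_one, one_mul] at hq
    exact hq
  subst hq
  have hr : a ^ 2 + c₁ * a + c₀ = 0 := by
    have := ha
    rw [Polynomial.IsRoot.def] at this
    simpa using this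
  refine ⟨-(a + c₁), ?_⟩
  have h0 : c₀ = -(a ^ 2 + c₁ * a) := by linear_combination hr
  rw [h0]
  simp only [map_neg, map_add, map_mul, map_pow]
  ring

/-- **Hensel.**  Inertia values lift along a local homomorphism out of a complete local ring. -/
theorem exists_isInertiaValue_of_map [IsAdicComplete (maximalIdeal A) A]
    {B : Type} [CommRing B] [IsLocalRing B] (f : A →+* B) (hf : IsLocalHom f)
    (ρ : GaloisRepAdic A) (φ σ : GQ) (a₀ : A) {w' : B}
    (h : IsInertiaValue (ρ.baseChangeAlong f hf) φ σ (f a₀) w') :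
    ∃ w : A, IsInertiaValue ρ φ σ a₀ w ∧ f w = w' := by
  haveI := hf
  obtain ⟨a', b', ha', hu', hc', hw'⟩ := h
  set P : A[X] := LinearMap.charpoly (ρ.ρ φ) with hPdef
  have hPm : P.Monic := LinearMap.charpoly_monic _
  have hPd : P.natDegree = 2 := by
    rw [hPdef, LinearMap.charpoly_natDegree, ρ.finrank_eq]
  have hPmap : P.map f = (X - C a') * (X - C b') := by
    rw [← hc', charpoly_baseChangeAlong]
  -- `P(a₀) ∈ 𝔪`
  have hcong : f a₀ - a' ∈ maximalIdeal B := by
    have := (maximalIdeal B).neg_mem ha'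
    simpa using this
  have h1 : P.eval a₀ ∈ maximalIdeal A := by
    by_contra hn
    have hunit : IsUnit (P.eval a₀) := by
      by_contra hn'
      exact hn hn'
    have hunit' : IsUnit (f (P.eval a₀)) := hunit.map f
    have e : f (P.eval a₀) = (f a₀ - a') * (f a₀ - b') := by
      rw [← Polynomial.eval_map_apply, hPmap]
      simp
    rw [e] at hunit'
    exact hcong (isUnit_of_mul_isUnit_left hunit')
  -- `P'(a₀)` is a unit
  have h2 : IsUnit (Ideal.Quotient.mk (maximalIdeal A) ((derivative P).eval a₀)) := by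
    have hB : IsUnit (f ((derivative P).eval a₀)) := by
      have e : f ((derivative P).eval a₀) = (f a₀ - b') + (f a₀ - a') := by
        rw [← Polynomial.eval_map_apply, ← Polynomial.derivative_map, hPmap]
        simp [Polynomial.derivative_mul]
      rw [e]
      have e2 : (f a₀ - b') + (f a₀ - a') = (a' - b') + ((f a₀ - a') + (f a₀ - a')) := by ring
      rw [e2]
      by_contra hn
      have hn' : (a' - b') + ((f a₀ - a') + (f a₀ - a')) ∈ maximalIdeal B := hn
      have : a' - b' ∈ maximalIdeal B := by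
        have := (maximalIdeal B).sub_mem hn' ((maximalIdeal B).add_mem hcong hcong)
        simpa using this
      exact this hu'
    exact (isUnit_of_map_unit f _ hB).map _
  obtain ⟨a, haroot, haa₀⟩ :=
    HenselianRing.is_henselian (I := maximalIdeal A) P hPm a₀ h1 h2
  obtain ⟨b, hab⟩ := exists_factor_of_root hPm hPd haroot
  -- images of the roots
  have hmap2 : (X - C a') * (X - C b') = (X - C (f a)) * (X - C (f b)) := by
    rw [← hPmap, hab, Polynomial.map_mul, Polynomial.map_sub, Polynomial.map_sub,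
      Polynomial.map_X, Polynomial.map_C, Polynomial.map_C]
  have hfa : f a - a' ∈ maximalIdeal B := by
    have e : f a - a' = f (a - a₀) + (f a₀ - a') := by rw [map_sub]; ring
    rw [e]
    exact (maximalIdeal B).add_mem (map_nonunit f _ haa₀) hcong
  obtain ⟨hfa', hfb'⟩ := roots_unique hmap2 hu' hfa
  have hu : IsUnit (a - b) := by
    refine isUnit_of_map_unit f _ ?_
    rw [map_sub, hfa', hfb']
    exact hu'
  obtain ⟨u, hu_eq⟩ := hu
  refine ⟨↑u⁻¹ * (ρ.trace (φ * σ) - b * ρ.trace σ), ⟨a, b, haa₀, ⟨u, hu_eq⟩, hab, ?_⟩, ?_⟩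
  · rw [← hu_eq, ← mul_assoc, Units.mul_inv, one_mul]
  · have hfu : IsUnit (f (u : A)) := u.isUnit.map f
    have e1 : f (u : A) = a' - b' := by rw [hu_eq, map_sub, hfa', hfb']
    apply hfu.mul_left_cancel
    rw [← map_mul, ← mul_assoc, Units.mul_inv, one_mul, e1, hw', trace_baseChangeAlong,
      trace_baseChangeAlong, map_sub, map_mul, hfb']

end Inertia

end Fermat.Agent.S59.TW.H959
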