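import Fermat.Agent.S59.TW.H959.Abs
import Fermat.Agent.S59.TW.H959.Inertia
import Fermat.Agent.S53.GlueInj
import Fermat.Agent.S53.H596.PowerSeriesCNL
import Fermat.Agent.S59.Patch.H967.Iso

/-!
# Row S59, cell TW: the glue `minRT_of_leaves` (helper959)

`minRT_of_leaves : TWPrimesStatement → DefRingExistsStatement → Arch.SigmaCondStatement →
  RToTStatement → DefRingResStatement → WeierstrassStatement → MinNumStatement →
  G4.RedStatement → HeckeSideStatement → Arch.MinRTStatement`.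

The Taylor–Wiles argument: for every `n` the Taylor–Wiles set `Q_n` of S56 gives
`γ : Λ ↠ R_Q`; S54 gives `R_Q ↠ T_Q`; the inertia values `w_i ∈ T_Q` of the Hecke side lift
uniquely to `R_Q` (Hensel) and die in `R_min`; substituting `X_i ↦ (a lift of) w_i - 1` gives
`φ : Λ → Λ`; `M_Q / (w_i^(p^n) - 1)` is then a patching level, and patching
(`Patch.H967`, S57) gives `R_min ≅ T_min` and the complete intersection property.
-/

set_option autoImplicit false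
set_option linter.style.haveILetI false
set_option linter.unusedSectionVars false
set_option linter.unusedVariables false

open IsLocalRing

namespace Fermat.Agent.S59.TW.H959

open Fermat.Agent.S59.Arch Fermat.Agent.S53.H113 Fermat.Agent.S53.H596

/-! ### Small lemmas on the conditions and the level -/

theorem sigmaCond_mono {𝒪 : Type} [CommRing 𝒪] {p : ℕ} {t : PType} {Smin Sig Sig' : Finset ℕ}
    (hS : Sig ⊆ Sig') {A : Type} [CommRing A] [IsLocalRing A] [Algebra 𝒪 A]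
    {ρ : GaloisRepAdic A} (h : sigmaCond 𝒪 p t Smin Sig ρ) : sigmaCond 𝒪 p t Smin Sig' ρ := by
  refine ⟨?_, h.2⟩
  have h1 := h.1
  cases t
  · exact ⟨h1.1, h1.2.1, fun q hq hqS => h1.2.2 q hq (fun hh => hqS (hS hh))⟩
  · exact ⟨h1.1, h1.2.1, fun q hq hqS => h1.2.2 q hq (fun hh => hqS (hS hh))⟩
  · exact ⟨h1.1, h1.2.1, fun q hq hqS => h1.2.2 q hq (fun hh => hqS (hS hh))⟩

theorem isUnramifiedAt_of_sigmaCond {𝒪 : Type} [CommRing 𝒪] {p : ℕ} {t : PType}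
    {Smin Sig : Finset ℕ} {A : Type} [CommRing A] [IsLocalRing A] [Algebra 𝒪 A]
    {ρ : GaloisRepAdic A} (h : sigmaCond 𝒪 p t Smin Sig ρ) {q : ℕ} (hq : q.Prime)
    (hqS : q ∉ Sig) : ρ.IsUnramifiedAt q := by
  have h1 := h.1
  cases t
  · exact h1.2.2 q hq hqS
  · exact h1.2.2 q hq hqS
  · exact h1.2.2 q hq hqS

theorem mem_of_prime_dvd_wilesLevel {p : ℕ} (hp : p.Prime) {t : PType} {Smin Sig : Finset ℕ}
    (hSig : ∀ q ∈ Sig, q.Prime) (hsub : Smin ⊆ Sig) (hpS : p ∈ Smin) {q : ℕ} (hq : q.Prime)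
    (hdvd : q ∣ wilesLevel p t Smin Sig) : q ∈ Sig := by
  unfold wilesLevel at hdvd
  rcases (Nat.Prime.dvd_mul hq).mp hdvd with h1 | h3
  · rcases (Nat.Prime.dvd_mul hq).mp h1 with h1 | h2
    · obtain ⟨q', hq', hqq'⟩ := (Prime.dvd_finsetProd_iff hq.prime _).mp h1
      have hq'S : q' ∈ Smin := Finset.mem_of_mem_erase hq'
      have : q = q' := (Nat.prime_dvd_prime_iff_eq hq (hSig q' (hsub hq'S))).mp hqq'
      rw [this]; exact hsub hq'S
    · obtain ⟨q', hq', hqq'⟩ := (Prime.dvd_finsetProd_iff hq.prime _).mp h2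
      have hq'S : q' ∈ Sig := (Finset.mem_sdiff.mp hq').1
      have hqq'' : q ∣ q' := hq.dvd_of_dvd_pow hqq'
      have : q = q' := (Nat.prime_dvd_prime_iff_eq hq (hSig q' hq'S)).mp hqq''
      rw [this]; exact hq'S
  · cases t
    · exact absurd (Nat.dvd_one.mp h3) hq.one_lt.ne'
    · have : q = p := (Nat.prime_dvd_prime_iff_eq hq hp).mp h3
      rw [this]; exact hsub hpS
    · have : q = p := (Nat.prime_dvd_prime_iff_eq hq hp).mp h3
      rw [this]; exact hsub hpS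

section Residual

variable {p : ℕ} [Fact p.Prime]
  {𝒪 : Type} [CommRing 𝒪] [IsDomain 𝒪] [IsDiscreteValuationRing 𝒪]
  [IsAdicComplete (maximalIdeal 𝒪) 𝒪]
  {ρbar : ResidualGaloisRep (ResidueField 𝒪)} {Smin : Finset ℕ}

theorem sigmaCond_residual (h : ResidualHyp p 𝒪 ρbar Smin) {t : PType}
    (ht : (t = .flat ∧ (GaloisRepAdic.ofResidualGaloisRep ρbar).IsFlatAt p) ∨
      (t = .sord ∧ (GaloisRepAdic.ofResidualGaloisRep ρbar).IsStrictOrdinaryAt p ∧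
        ¬ (GaloisRepAdic.ofResidualGaloisRep ρbar).IsFlatAt p))
    {Sig : Finset ℕ} (hS : Smin ⊆ Sig) :
    sigmaCond 𝒪 p t Smin Sig (GaloisRepAdic.ofResidualGaloisRep ρbar) := by
  have hunr : ∀ q : ℕ, q.Prime → q ∉ Sig →
      (GaloisRepAdic.ofResidualGaloisRep ρbar).IsUnramifiedAt q := by
    intro q hq hqS
    have hqp : q ≠ p := fun e => hqS (hS (e ▸ h.hpSmin))
    have hqSmin : q ∉ Smin := fun hh => hqS (hS hh)
    have h1 : ρbar.IsUnramifiedAt q := by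
      by_contra hn
      exact hqSmin ((h.hmin q hq hqp).mpr hn)
    exact h1
  refine ⟨?_, h.hunip⟩
  rcases ht with ⟨rfl, hf⟩ | ⟨rfl, hs, -⟩
  · exact ⟨h.hdet, hf, hunr⟩
  · exact ⟨h.hdet, hs, hunr⟩

/-- Uniqueness in the universal property. -/
theorem eq_of_compat
    {𝒟 : ∀ ⦃A : Type⦄ [CommRing A] [IsLocalRing A] [Algebra 𝒪 A], GaloisRepAdic A → Prop}
    (D : GaloisRep.DeformationRingData 𝒪 ρbar 𝒟)
    {A : Type} [CommRing A] [IsLocalRing A] [IsNoetherianRing A]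
    [IsAdicComplete (maximalIdeal A) A] [Algebra 𝒪 A] [IsLocalHom (algebraMap 𝒪 A)]
    (hsurj : Function.Surjective (residue A ∘ algebraMap 𝒪 A)) (ρA : GaloisRepAdic A)
    (h𝒟 : 𝒟 ρA)
    (hres : ρA.residual.IsEquiv (ρbar.baseChangeAlong (ResidueField.map (algebraMap 𝒪 A))))
    (φ φ' : D.R →ₐ[𝒪] A)
    (h : ∃ hφ : IsLocalHom (φ : D.R →+* A),
      (D.ρ.baseChangeAlong (φ : D.R →+* A) hφ).IsEquiv ρA)
    (h' : ∃ hφ : IsLocalHom (φ' : D.R →+* A),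
      (D.ρ.baseChangeAlong (φ' : D.R →+* A) hφ).IsEquiv ρA) : φ = φ' :=
  (D.universal A hsurj ρA h𝒟 hres).unique h h'

/-- Compatibility of a composite. -/
theorem compat_comp
    {𝒟 : ∀ ⦃A : Type⦄ [CommRing A] [IsLocalRing A] [Algebra 𝒪 A], GaloisRepAdic A → Prop}
    (D : GaloisRep.DeformationRingData 𝒪 ρbar 𝒟)
    {A : Type} [CommRing A] [IsLocalRing A] [Algebra 𝒪 A]
    {B : Type} [CommRing B] [IsLocalRing B] [Algebra 𝒪 B]
    (φ : D.R →ₐ[𝒪] A) (hφ : IsLocalHom (φ : D.R →+* A)) (ρA : GaloisRepAdic A)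
    (hA : (D.ρ.baseChangeAlong (φ : D.R →+* A) hφ).IsEquiv ρA)
    (ψ : A →ₐ[𝒪] B) (hψ : IsLocalHom (ψ : A →+* B)) (ρB : GaloisRepAdic B)
    (hB : (ρA.baseChangeAlong (ψ : A →+* B) hψ).IsEquiv ρB) :
    ∃ h : IsLocalHom ((ψ.comp φ : D.R →ₐ[𝒪] B) : D.R →+* B),
      (D.ρ.baseChangeAlong ((ψ.comp φ : D.R →ₐ[𝒪] B) : D.R →+* B) h).IsEquiv ρB := by
  have hloc : IsLocalHom ((ψ.comp φ : D.R →ₐ[𝒪] B) : D.R →+* B) := by
    haveI := hφ
    haveI := hψ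
    exact RingHom.isLocalHom_comp (ψ : A →+* B) (φ : D.R →+* A)
  refine ⟨hloc, ?_⟩
  have h1 := baseChangeAlong_comp_isEquiv' (φ : D.R →+* A) hφ (ψ : A →+* B) hψ
    ((ψ.comp φ : D.R →ₐ[𝒪] B) : D.R →+* B) hloc rfl D.ρ
  exact isEquiv_trans (isEquiv_symm h1)
    (isEquiv_trans (isEquiv_baseChangeAlong (ψ : A →+* B) hψ hA) hB)

end Residual

/-! ### One patching level -/

section Level

variable {p : ℕ} [Fact p.Prime]
  {𝒪 : Type} [CommRing 𝒪] [IsDomain 𝒪] [IsDiscreteValuationRing 𝒪]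
  [IsAdicComplete (maximalIdeal 𝒪) 𝒪] [Finite (ResidueField 𝒪)]
  {ρbar : ResidualGaloisRep (ResidueField 𝒪)} {Smin : Finset ℕ} {t : PType}
  [NeZero (wilesLevel p t Smin Smin)]

/-- **The patching level attached to one Taylor–Wiles set.** -/
theorem exists_level (h54 : RToTStatement) (hres : DefRingResStatement)
    (hW : WeierstrassStatement)
    (hc : ∀ Sig : Finset ℕ, GaloisRep.IsDeformationCondition 𝒪 (sigmaCond 𝒪 p t Smin Sig))
    (h : ResidualHyp p 𝒪 ρbar Smin)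
    (P₀ : HeckePkg p 𝒪 ρbar t Smin Smin)
    {M₀ : Type} [AddCommGroup M₀] [Module P₀.T M₀]
    (D : GaloisRep.DeformationRingData 𝒪 ρbar (sigmaCond 𝒪 p t Smin Smin))
    (φ₀ : D.R →ₐ[𝒪] P₀.T) (hφ₀loc : IsLocalHom (φ₀ : D.R →+* P₀.T))
    (hφ₀ : (D.ρ.baseChangeAlong (φ₀ : D.R →+* P₀.T) hφ₀loc).IsEquiv P₀.H.ρ)
    {n r : ℕ} {qv : Fin r → ℕ} (hQ : IsTWSet p ρbar Smin n qv)
    (hmod : HasTWModule P₀ M₀ n qv)
    (DQ : GaloisRep.DeformationRingData 𝒪 ρbar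
      (sigmaCond 𝒪 p t Smin (Smin ∪ Finset.univ.image qv)))
    (γ : MvPowerSeries (Fin r) 𝒪 →ₐ[𝒪] DQ.R) (hγ : Function.Surjective γ) :
    letI : Module D.R M₀ := Module.compHom M₀ (φ₀ : D.R →+* P₀.T)
    Nonempty (Algebra.PatchingLevel 𝒪 r D.R M₀ (relJ 𝒪 r (p ^ n))) := by
  classical
  have hpP : p.Prime := Fact.out
  obtain ⟨hNQ, PQ, resT, hresT, MQ, _, _, πQ, Pv, φv, σv, αv, w, d, b, hcompat, hπ, hπs,
    hker, hloc, hbasis⟩ := hmod
  haveI := hNQ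
  have hsub : Smin ⊆ Smin ∪ Finset.univ.image qv := Finset.subset_union_left
  have hSigP : ∀ q ∈ Smin ∪ Finset.univ.image qv, q.Prime := by
    intro q hq
    rcases Finset.mem_union.mp hq with hq | hq
    · exact h.hSmin q hq
    · obtain ⟨i, -, rfl⟩ := Finset.mem_image.mp hq
      exact (hQ.2.1 i).1
  -- `R_Q ↠ T_Q`
  obtain ⟨φQ, hφQs, hφQloc, hφQ⟩ := h54 DQ PQ.H
    (fun q hq hdvd => mem_of_prime_dvd_wilesLevel hpP hSigP hsub h.hpSmin hq hdvd)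
    PQ.hcond PQ.hres
  -- `R_Q ↠ R_min`
  obtain ⟨resR, hresRs, hresRloc, hresR⟩ := hres p h.hp2 𝒪 h.hp𝒪 ρbar t Smin Smin
    (Smin ∪ Finset.univ.image qv) hsub (hc _) (hc _) DQ D
  -- the square commutes
  have hcomm : resT.comp φQ = φ₀.comp resR :=
    eq_of_compat DQ P₀.H.residue_surjective P₀.H.ρ (sigmaCond_mono hsub P₀.hcond) P₀.hres _ _
      (compat_comp DQ φQ hφQloc PQ.H.ρ hφQ resT hresT P₀.H.ρ hcompat)
      (compat_comp DQ resR hresRloc D.ρ hresR φ₀ hφ₀loc P₀.H.ρ hφ₀)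
  -- inertia values in `R_Q`
  have hwR : ∀ i, ∃ wR : DQ.R,
      IsInertiaValue DQ.ρ (φv i) (σv i) (algebraMap 𝒪 DQ.R (αv i)) wR ∧ φQ wR = w i := by
    intro i
    obtain ⟨-, -, -, hiv⟩ := hloc i
    have h1 : IsInertiaValue (DQ.ρ.baseChangeAlong (φQ : DQ.R →+* PQ.T) hφQloc) (φv i) (σv i)
        ((φQ : DQ.R →+* PQ.T) (algebraMap 𝒪 DQ.R (αv i))) (w i) := by
      have h2 := hiv.of_isEquiv (isEquiv_symm hφQ)
      have h3 : (φQ : DQ.R →+* PQ.T) (algebraMap 𝒪 DQ.R (αv i)) = algebraMap 𝒪 PQ.T (αv i) :=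
        φQ.commutes _
      rw [h3]
      exact h2
    exact exists_isInertiaValue_of_map (φQ : DQ.R →+* PQ.T) hφQloc DQ.ρ (φv i) (σv i) _ h1
  choose wR hwR1 hwR2 using hwR
  have hres1 : ∀ i, resR (wR i) = 1 := by
    intro i
    obtain ⟨hP, -, hσ, -⟩ := hloc i
    have h1 := ((hwR1 i).map (resR : DQ.R →+* D.R) hresRloc).of_isEquiv hresR
    have hq : D.ρ.IsUnramifiedAt (qv i) :=
      isUnramifiedAt_of_sigmaCond D.isOfType (hQ.2.1 i).1 (hQ.2.1 i).2.1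
    exact h1.eq_one_of_isUnramifiedAt hq hP hσ
  -- the substitution
  have hf : ∀ i, ∃ f : MvPowerSeries (Fin r) 𝒪, γ f = wR i - 1 := fun i => hγ _
  choose f hf using hf
  have hfm : ∀ i, f i ∈ maximalIdeal (MvPowerSeries (Fin r) 𝒪) := by
    intro i
    by_contra hn
    have hu : IsUnit (f i) := by
      by_contra h'
      exact hn h'
    have h1 : IsUnit (resR (γ (f i))) := (hu.map γ).map resR
    rw [hf, map_sub, hres1, map_one, sub_self] at h1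
    exact not_isUnit_zero h1
  haveI : IsAdicComplete (maximalIdeal (MvPowerSeries (Fin r) 𝒪)) (MvPowerSeries (Fin r) 𝒪) :=
    isAdicComplete_mvPowerSeries
  let φ : MvPowerSeries (Fin r) 𝒪 →ₐ[𝒪] MvPowerSeries (Fin r) 𝒪 :=
    evalCNL (maximalIdeal (MvPowerSeries (Fin r) 𝒪)) f hfm
  have hφX : ∀ i, φ (MvPowerSeries.X i) = f i := fun i => evalCNL_X _ _ _ i
  -- assemble
  letI : Module D.R M₀ := Module.compHom M₀ (φ₀ : D.R →+* P₀.T)
  refine exists_patchingLevel (p ^ n) (φQ.comp γ) (resR.comp γ) φ w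
    (hresRs.comp hγ) ?_ ?_ πQ ?_ hπs hker b hbasis ?_
  · intro i
    rw [hφX]
    show φQ (γ (f i)) = _
    rw [hf, map_sub, hwR2, map_one]
  · intro i
    rw [hφX]
    show resR (γ (f i)) = 0
    rw [hf, map_sub, hres1, map_one, sub_self]
  · intro g x
    show πQ (φQ (γ g) • x) = φ₀ (resR (γ g)) • πQ x
    rw [hπ]
    congr 1
    exact AlgHom.congr_fun hcomm (γ g)
  · intro g
    exact hW p 𝒪 h.hp𝒪 n r g

end Level

/-! ### The glue -/

section Core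

variable {p : ℕ} [Fact p.Prime]
  {𝒪 : Type} [CommRing 𝒪] [IsDomain 𝒪] [IsDiscreteValuationRing 𝒪]
  [IsAdicComplete (maximalIdeal 𝒪) 𝒪] [Finite (ResidueField 𝒪)] [CharZero 𝒪]
  {ρbar : ResidualGaloisRep (ResidueField 𝒪)} {Smin : Finset ℕ} {t : PType}
  [NeZero (wilesLevel p t Smin Smin)]

/-- **The Taylor–Wiles argument.**  Given the output of the Hecke side (a package `P₀`, an
`𝒪`-point, a nonzero module `M₀` with Taylor–Wiles modules over it for all Taylor–Wiles sets):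
every compatible `φ₀ : R_min → T_min` is bijective, `M₀` is free over `T_min`, and
`#Φ = #(𝒪/η) < ∞`. -/
theorem tw_core (hTW : TWPrimesStatement) (h53 : DefRingExistsStatement)
    (hcond : SigmaCondStatement) (h54 : RToTStatement) (hres : DefRingResStatement)
    (hW : WeierstrassStatement) (hnum : MinNumStatement) (hred : G4.RedStatement)
    (h : ResidualHyp p 𝒪 ρbar Smin)
    (ht : (t = .flat ∧ (GaloisRepAdic.ofResidualGaloisRep ρbar).IsFlatAt p) ∨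
      (t = .sord ∧ (GaloisRepAdic.ofResidualGaloisRep ρbar).IsStrictOrdinaryAt p ∧
        ¬ (GaloisRepAdic.ofResidualGaloisRep ρbar).IsFlatAt p))
    (P₀ : HeckePkg p 𝒪 ρbar t Smin Smin) (pt : P₀.T →ₐ[𝒪] 𝒪)
    {M₀ : Type} [AddCommGroup M₀] [Module P₀.T M₀] [Nontrivial M₀]
    (hM : ∀ (n r : ℕ) (qv : Fin r → ℕ), IsTWSet p ρbar Smin n qv → HasTWModule P₀ M₀ n qv)
    (D : GaloisRep.DeformationRingData 𝒪 ρbar (sigmaCond 𝒪 p t Smin Smin))
    (φ₀ : D.R →ₐ[𝒪] P₀.T) (hφ₀loc : IsLocalHom (φ₀ : D.R →+* P₀.T))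
    (hφ₀ : (D.ρ.baseChangeAlong (φ₀ : D.R →+* P₀.T) hφ₀loc).IsEquiv P₀.H.ρ) :
    Function.Bijective φ₀ ∧
      (∃ (d : ℕ) (b : Fin d → M₀), Function.Bijective (Fintype.linearCombination P₀.T b)) ∧
      Finite (NC.Cot (pt.comp φ₀)) ∧
      Nat.card (NC.Cot (pt.comp φ₀)) = Nat.card (𝒪 ⧸ NC.congIdeal pt) := by
  classical
  have hpP : p.Prime := Fact.out
  have hc : ∀ Sig : Finset ℕ, GaloisRep.IsDeformationCondition 𝒪 (sigmaCond 𝒪 p t Smin Sig) :=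
    fun Sig => (hcond p h.hp2 𝒪 h.hp𝒪 t Smin Sig).1
  have hNS : ∀ q : ℕ, q.Prime → q ∣ wilesLevel p t Smin Smin → q ∈ (↑Smin : Set ℕ) :=
    fun q hq hdvd => mem_of_prime_dvd_wilesLevel hpP h.hSmin (Finset.Subset.refl _) h.hpSmin hq hdvd
  -- surjectivity of `φ₀`
  have hφ₀s : Function.Surjective φ₀ := by
    obtain ⟨φ', hφ's, hφ'loc, hφ'⟩ := h54 D P₀.H hNS P₀.hcond P₀.hres
    have : φ₀ = φ' := eq_of_compat D P₀.H.residue_surjective P₀.H.ρ P₀.hcond P₀.hres _ _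
      ⟨hφ₀loc, hφ₀⟩ ⟨hφ'loc, hφ'⟩
    rw [this]
    exact hφ's
  -- the Taylor–Wiles primes
  have ht' : t = .flat ∨ t = .sord := by
    rcases ht with ⟨h1, -⟩ | ⟨h1, -⟩
    · exact Or.inl h1
    · exact Or.inr h1
  obtain ⟨r, hr⟩ := hTW p 𝒪 ρbar Smin h t ht'
  letI : Module D.R M₀ := Module.compHom M₀ (φ₀ : D.R →+* P₀.T)
  have hlev : ∀ n : ℕ, Nonempty (Algebra.PatchingLevel 𝒪 r D.R M₀ (relJ 𝒪 r (p ^ n))) := by
    intro n
    obtain ⟨qv, hQ, hγ⟩ := hr n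
    obtain ⟨DQ⟩ := h53 𝒪 ρbar (sigmaCond 𝒪 p t Smin (Smin ∪ Finset.univ.image qv)) h.habs
      (hc _) (sigmaCond_residual h ht Finset.subset_union_left)
      ((hcond p h.hp2 𝒪 h.hp𝒪 t Smin _).2 ρbar)
    obtain ⟨γ, hγs⟩ := hγ DQ
    exact exists_level h54 hres hW hc h P₀ D φ₀ hφ₀loc hφ₀ hQ (hM n r qv hQ) DQ γ hγs
  let P : Algebra.PatchingDatum 𝒪 p r D.R M₀ := ⟨fun n => Classical.choice (hlev n)⟩
  have hbij : Function.Bijective φ₀ :=
    Patch.H967.bijective_of_patchingDatum h.hp𝒪 (φ₀ : D.R →+* P₀.T) hφ₀s (fun _ _ => rfl) P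
  have hfree : Module.Free P₀.T M₀ :=
    Patch.H967.free_of_patchingDatum_of_surjective h.hp𝒪 (φ₀ : D.R →+* P₀.T) hφ₀s
      (fun _ _ => rfl) P
  obtain ⟨L⟩ := Patch.H967.exists_patchingLevel_bot h.hp𝒪 P
  obtain ⟨-, -, hkerL⟩ := Fermat.Agent.S57.result L
  -- `M₀` is finite over `T₀`
  haveI hfin : Module.Finite P₀.T M₀ := by
    refine ⟨⟨Finset.univ.image fun i => L.π (L.b i), ?_⟩⟩
    rw [eq_top_iff]
    intro m _
    obtain ⟨x, rfl⟩ := L.π_surjective m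
    obtain ⟨c, rfl⟩ := L.b_span x
    rw [map_sum]
    refine Submodule.sum_mem _ fun i _ => ?_
    rw [L.π_smul]
    show φ₀ (L.ψ (L.φ (c i))) • L.π (L.b i) ∈ _
    refine Submodule.smul_mem _ _ (Submodule.subset_span ?_)
    simp
  have hbasis : ∃ (d : ℕ) (b : Fin d → M₀),
      Function.Bijective (Fintype.linearCombination P₀.T b) := by
    haveI := hfree
    let B := Module.finBasis P₀.T M₀
    refine ⟨_, B, ?_⟩
    have : (Fintype.linearCombination P₀.T B : (Fin _ → P₀.T) → M₀) = B.equivFun.symm := by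
      funext x
      rw [Fintype.linearCombination_apply, Module.Basis.equivFun_symm_apply]
    rw [this]
    exact B.equivFun.symm.bijective
  refine ⟨hbij, hbasis, ?_⟩
  haveI : IsReduced P₀.T := hred (wilesLevel p t Smin Smin) (↑Smin : Set ℕ) hNS 𝒪 P₀.θ
  exact hnum 𝒪 r D.R P₀.T φ₀ hbij L.ψ L.ψ_surjective (fun i => L.φ (MvPowerSeries.X i)) hkerL pt

end Core

/-- **Cell TW (ring form).**  `R_min ≅ T_min` from the leaves. -/
theorem minRT_of_leaves (hTW : TWPrimesStatement) (h53 : DefRingExistsStatement)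
    (hcond : SigmaCondStatement) (h54 : RToTStatement) (hres : DefRingResStatement)
    (hW : WeierstrassStatement) (hnum : MinNumStatement) (hred : G4.RedStatement)
    (hHecke : HeckeSideStatement) : MinRTStatement := by
  intro p _ 𝒪 _ _ _ _ _ _ ρbar Smin h t ht hN χ hχ
  obtain ⟨P₀, pt, M₀, _, _, _, hM⟩ := hHecke p 𝒪 ρbar Smin h t ht hN χ hχ
  refine rtIso_of_pkg P₀ ?_
  rintro D φ₀ ⟨hφ₀loc, hφ₀⟩
  obtain ⟨h1, -, h2, h3⟩ := tw_core hTW h53 hcond h54 hres hW hnum hred h ht P₀ pt hM D φ₀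
    hφ₀loc hφ₀
  exact ⟨h1, pt, h2, h3⟩

end Fermat.Agent.S59.TW.H959

namespace Fermat.Agent.S59.TW.H959

open Polynomial Fermat.Agent.S59.Arch

/-- The frozen S56, as a `Prop` (verbatim). -/
def S56Statement : Prop :=
  ∀ {𝒪 : Type} [CommRing 𝒪] [IsDomain 𝒪] [IsDiscreteValuationRing 𝒪]
    [IsAdicComplete (maximalIdeal 𝒪) 𝒪] [Finite (ResidueField 𝒪)]
    (p : ℕ) [Fact p.Prime] (_hp2 : p ≠ 2) (_hp𝒪 : (p : 𝒪) ∈ maximalIdeal 𝒪)
    (ρbar : ResidualGaloisRep (ResidueField 𝒪))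
    (_habs : ρbar.IsAbsolutelyIrreducible)
    (_hdet : (GaloisRepAdic.ofResidualGaloisRep ρbar).DetIsCyclotomic p)
    (_hsplit : ∀ σ : AlgebraicClosure ℚ ≃ₐ[ℚ] AlgebraicClosure ℚ,
      ∃ α β : ResidueField 𝒪, LinearMap.charpoly (ρbar.ρ σ) = (X - C α) * (X - C β))
    (_hTW : ∀ (K : Type) [Field K] [Algebra (ResidueField 𝒪) K]
      (G : Subgroup (AlgebraicClosure ℚ ≃ₐ[ℚ] AlgebraicClosure ℚ)), G.index = 2 →
      ∀ V : Submodule K (ρbar.baseChange K).V,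
        (∀ σ ∈ G, ∀ x ∈ V, (ρbar.baseChange K).ρ σ x ∈ V) → V = ⊥ ∨ V = ⊤)
    (S Smin : Finset ℕ) (_hpSmin : p ∈ Smin) (_hSmin : Smin ⊆ S) (_hS : ∀ q ∈ S, q.Prime)
    (_hmin : ∀ q : ℕ, q.Prime → q ≠ p → (q ∈ Smin ↔ ¬ ρbar.IsUnramifiedAt q)),
    (∃ r : ℕ, ∀ n : ℕ, ∃ qv : Fin r → ℕ, Function.Injective qv ∧
      (∀ i, (qv i).Prime ∧ qv i ∉ S ∧ p ^ (n + 1) ∣ qv i - 1) ∧
      (∀ i, ∀ P : ValuationSubring (AlgebraicClosure ℚ), P.LiesOverPrime (qv i) →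
        ∀ φ : AlgebraicClosure ℚ ≃ₐ[ℚ] AlgebraicClosure ℚ, P.IsFrobeniusAt φ (qv i) →
          ∃ α β : ResidueField 𝒪, α ≠ β ∧ LinearMap.charpoly (ρbar.ρ φ) = (X - C α) * (X - C β)) ∧
      ∀ DQ : GaloisRep.DeformationRingData 𝒪 ρbar (fun _A _ _ _ ρ =>
          GaloisRep.strictOrdinaryCondition 𝒪 p (Smin ∪ Finset.univ.image qv) ρ ∧
            ∀ q ∈ Smin, q.Prime → q ≠ p → ρ.IsUnipotentOnInertiaAt q),
        ∃ γ : MvPowerSeries (Fin r) 𝒪 →ₐ[𝒪] DQ.R, Function.Surjective γ) ∧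
    (∃ r : ℕ, ∀ n : ℕ, ∃ qv : Fin r → ℕ, Function.Injective qv ∧
      (∀ i, (qv i).Prime ∧ qv i ∉ S ∧ p ^ (n + 1) ∣ qv i - 1) ∧
      (∀ i, ∀ P : ValuationSubring (AlgebraicClosure ℚ), P.LiesOverPrime (qv i) →
        ∀ φ : AlgebraicClosure ℚ ≃ₐ[ℚ] AlgebraicClosure ℚ, P.IsFrobeniusAt φ (qv i) →
          ∃ α β : ResidueField 𝒪, α ≠ β ∧ LinearMap.charpoly (ρbar.ρ φ) = (X - C α) * (X - C β)) ∧
      ∀ DQ : GaloisRep.DeformationRingData 𝒪 ρbar (fun _A _ _ _ ρ =>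
          GaloisRep.flatCondition 𝒪 p (Smin ∪ Finset.univ.image qv) ρ ∧
            ∀ q ∈ Smin, q.Prime → q ≠ p → ρ.IsUnipotentOnInertiaAt q),
        ∃ γ : MvPowerSeries (Fin r) 𝒪 →ₐ[𝒪] DQ.R, Function.Surjective γ)

/-- **Adapter**: the frozen S56 gives the Taylor–Wiles primes in the vocabulary of
`sigmaCond`. -/
theorem twPrimes_of_S56 (h56 : S56Statement) : TWPrimesStatement := by
  intro p _ 𝒪 _ _ _ _ _ ρbar Smin h t ht
  obtain ⟨hs, hf⟩ := h56 p h.hp2 h.hp𝒪 ρbar h.habs h.hdet h.hsplit h.hTW Smin Smin h.hpSmin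
    (Finset.Subset.refl _) h.hSmin h.hmin
  rcases ht with rfl | rfl
  · obtain ⟨r, hr⟩ := hf
    refine ⟨r, fun n => ?_⟩
    obtain ⟨qv, h1, h2, h3, h4⟩ := hr n
    exact ⟨qv, ⟨h1, h2, h3⟩, fun DQ => h4 DQ⟩
  · obtain ⟨r, hr⟩ := hs
    refine ⟨r, fun n => ?_⟩
    obtain ⟨qv, h1, h2, h3, h4⟩ := hr n
    exact ⟨qv, ⟨h1, h2, h3⟩, fun DQ => h4 DQ⟩

end Fermat.Agent.S59.TW.H959
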