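import Fermat.Agent.S59.TW.H959.Glue
import Fermat.Agent.S59.Arch.PlusPkg

/-!
# Row S59, cell TW: the glue in `Plus` form (helper959, board v5)

`minRTPlusH_of_leaves : (the leaves of tw_core) → Arch.HeckeSidePlusStatement →
  Arch.MinRTPlusHStatement`.

The Taylor–Wiles argument `tw_core` (`Glue.lean`) applied to ONE compatible pair `(D, φ₀)`
(which exists by S53 + S54) gives a finite basis of `M₀` over `T₀`; the bridge clause of the
Hecke side then gives `η_{T₀}(pt) = δ₀(χ)`, which is the target ideal at `Σ = Smin`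
(`Arch.targetIdeal_min`); the clause `∀ D φ` of `RTIsoPlus` is `tw_core` again.
-/

set_option autoImplicit false
set_option linter.style.haveILetI false
set_option linter.unusedSectionVars false
set_option linter.unusedVariables false

open IsLocalRing

namespace Fermat.Agent.S59.TW.H959

open Fermat.Agent.S59.Arch Fermat.Agent.S59.NM

/-- **Cell TW (`Plus` form).**  `RTIsoPlus` at the minimal level from the leaves. -/
theorem minRTPlusH_of_leaves (hTW : TWPrimesStatement) (h53 : DefRingExistsStatement)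
    (hcond : SigmaCondStatement) (h54 : RToTStatement) (hres : DefRingResStatement)
    (hW : WeierstrassStatement) (hnum : MinNumStatement) (hred : G4.RedStatement)
    (hHecke : HeckeSidePlusStatement) : MinRTPlusHStatement := by
  intro p _ 𝒪 _ _ _ _ _ _ ρbar Smin h hcurve t ht hN χ hχ
  classical
  have hpP : p.Prime := Fact.out
  obtain ⟨P₀, pt, M₀, _, _, _, hpt, hbridge, hM⟩ :=
    hHecke p 𝒪 ρbar Smin h hcurve t ht hN χ hχ
  have hc : ∀ Sig : Finset ℕ, GaloisRep.IsDeformationCondition 𝒪 (sigmaCond 𝒪 p t Smin Sig) :=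
    fun Sig => (hcond p h.hp2 𝒪 h.hp𝒪 t Smin Sig).1
  have hNS : ∀ q : ℕ, q.Prime → q ∣ wilesLevel p t Smin Smin → q ∈ (↑Smin : Set ℕ) :=
    fun q hq hdvd =>
      mem_of_prime_dvd_wilesLevel hpP h.hSmin (Finset.Subset.refl _) h.hpSmin hq hdvd
  -- one compatible pair `(D, φ₀)`
  obtain ⟨D⟩ := h53 𝒪 ρbar (sigmaCond 𝒪 p t Smin Smin) h.habs (hc _)
    (sigmaCond_residual h ht (Finset.Subset.refl _))
    ((hcond p h.hp2 𝒪 h.hp𝒪 t Smin _).2 ρbar)
  obtain ⟨φ', -, hφ'loc, hφ'⟩ := h54 D P₀.H hNS P₀.hcond P₀.hres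
  obtain ⟨-, hbasis, -, -⟩ := tw_core hTW h53 hcond h54 hres hW hnum hred h ht P₀ pt hM D φ'
    hφ'loc hφ'
  have hη : NC.congIdeal pt = targetIdeal p 𝒪 t Smin Smin (eig χ) := by
    rw [targetIdeal_min]
    exact hbridge hbasis
  refine rtIsoPlus_of_pkg P₀ (eig χ) pt hpt hη ?_
  rintro D φ₀ ⟨hφ₀loc, hφ₀⟩
  obtain ⟨h1, -, h2, h3⟩ := tw_core hTW h53 hcond h54 hres hW hnum hred h ht P₀ pt hM D φ₀
    hφ₀loc hφ₀
  exact ⟨h1, h2, h3⟩

/-- The same from the frozen S56 (as a `Prop`). -/
theorem minRTPlusH_of_S56 (h56 : S56Statement) (h53 : DefRingExistsStatement)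
    (hcond : SigmaCondStatement) (h54 : RToTStatement) (hres : DefRingResStatement)
    (hW : WeierstrassStatement) (hnum : MinNumStatement) (hred : G4.RedStatement)
    (hHecke : HeckeSidePlusStatement) : MinRTPlusHStatement :=
  minRTPlusH_of_leaves (twPrimes_of_S56 h56) h53 hcond h54 hres hW hnum hred hHecke

end Fermat.Agent.S59.TW.H959
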