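import Fermat.Agent.S59.TW.H959.GluePlus
import Fermat.Agent.S59.TW.AsmPlus
import Fermat.Agent.S59.TW.H24.AutPlus
import Fermat.Agent.S59.TW.H206.Weierstrass
import Fermat.Agent.S59.TW.H123.DefRingRes
import Fermat.Agent.S59.H427.MinNum
import Fermat.Agent.S59.H659.SigmaCond
import Fermat.Agent.S59.G4.H547.Red
import Fermat.Agent.S53
import Fermat.Agent.S54

/-!
# Row S59, cell TW: the wiring of the closed leaves in `Plus` form, Layers 1 + 2 + 3 (helper959)

Board v5: the target of the cell TW is `Arch.MinRTPlusHStatement`.  All leaves of Layer 1 except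
S56 (frozen statement, on main as `Fermat.Agent.S56.result`) are closed; Layer 2 (helper24,
`TW/AsmPlus.lean`) reduces the Hecke side to PKG and AUT-PLUS; Layer 3 (helper24,
`TW/H24/AutPlus.lean`) reduces AUT-PLUS to the eight leaves IDEM, MOD0, NONTRIV, MODQ, FREE,
CTRL, CMP, BRIDGE.  Hence

* `minRTPlusH_of : S56Statement → TW.PkgPlusStatement → TW.AutPlusStatement →
    Arch.MinRTPlusHStatement`;
* `minRTPlusH_of_aut : S56Statement → TW.PkgPlusStatement → (the eight leaves of Layer 3) →
    Arch.MinRTPlusHStatement`.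

(`S56Statement` is the frozen S56 verbatim, `TW/H959/Glue.lean`; the final assembly plugs in
`Fermat.Agent.S56.result`.  It is kept as a hypothesis here to keep the closure small.)
-/

set_option autoImplicit false

namespace Fermat.Agent.S59.TW.H959

open Fermat.Agent.S59 Fermat.Agent.S59.Arch

/-- **Cell TW, `Plus` form**, from S56, PKG and AUT-PLUS. -/
theorem minRTPlusH_of (h56 : S56Statement) (hPkg : TW.PkgPlusStatement)
    (hAut : TW.AutPlusStatement) : Arch.MinRTPlusHStatement :=
  minRTPlusH_of_leaves (twPrimes_of_S56 h56) Fermat.Agent.S53.result H659.sigmaCondStatement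
    @Fermat.Agent.S54.result TW.H123.defRingRes TW.H206.weierstrass H427.minNum G4.H547.red
    (TW.heckeSidePlus_of hPkg hAut)

/-- **Cell TW, `Plus` form**, from S56, PKG and the eight leaves of Layer 3. -/
theorem minRTPlusH_of_aut (h56 : S56Statement) (hPkg : TW.PkgPlusStatement)
    (hIdem : TW.Aut.IdemStatement) (hMod0 : TW.Aut.Mod0Statement)
    (hNon : TW.Aut.NontrivStatement) (hModQ : TW.Aut.ModQStatement)
    (hFree : TW.Aut.FreeQStatement) (hCtrl : TW.Aut.CtrlStatement)
    (hCmp : TW.Aut.CmpStatement) (hBridge : TW.H24.BridgeStatement) :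
    Arch.MinRTPlusHStatement :=
  minRTPlusH_of h56 hPkg
    (TW.H24.autPlus_of_leaves hIdem hMod0 hNon hModQ hFree hCtrl hCmp hBridge)

end Fermat.Agent.S59.TW.H959
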